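import Fermat.Agent.LT.Defs
import Fermat.Agent.Eisen.ChiAction
import Fermat.Agent.RT.Gen.Inertia
import Fermat.Agent.Char.Unramified
import Fermat.Agent.GalRep.Cyclo
import Fermat.Prelude.Def_GaloisRep_ComplexConjugation
import Mathlib.NumberTheory.LSeries.PrimesInAP

/-!
# The cyclotomic characters modulo `M`

The character of the Galois group on the roots of unity of order `M`, its values at Frobenius
elements, on inertia and at complex conjugation, and the totally ramified part.
-/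

set_option autoImplicit false

noncomputable section

namespace FLTAgent.LT

open scoped Pointwise

variable {M : ℕ} [NeZero M]

instance hasEnoughRootsOfUnity_qb : HasEnoughRootsOfUnity Qb M :=
  haveI : NeZero (M : Qb) := ⟨Nat.cast_ne_zero.2 (NeZero.ne M)⟩
  inferInstance

variable (M) in
/-- The character of `G_ℚ` on the roots of unity of order `M`. -/
def cycMod : Gam →* (ZMod M)ˣ :=
  MonoidHom.mk'
    (fun σ => modularCyclotomicCharacter Qb (HasEnoughRootsOfUnity.natCard_rootsOfUnity Qb M)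
      (σ : Qb ≃+* Qb))
    (fun a b => by rw [← map_mul]; congr 1)

theorem cycMod_spec (σ : Gam) {z : Qb} (hz : z ^ M = 1) :
    σ z = z ^ ((cycMod M σ : ZMod M)).val := by
  have hu : IsUnit z := isUnit_iff_ne_zero.2 fun h => by
    rw [h, zero_pow (NeZero.ne M)] at hz
    exact zero_ne_one hz
  have hmem : hu.unit ∈ rootsOfUnity M Qb := (mem_rootsOfUnity _ _).2 (Units.ext (by simpa using hz))
  simpa [cycMod] using modularCyclotomicCharacter.spec Qb
    (HasEnoughRootsOfUnity.natCard_rootsOfUnity Qb M) (σ : Qb ≃+* Qb) hmem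

theorem cycMod_eq_of_apply {σ : Gam} {z : Qb} (hz : IsPrimitiveRoot z M) {j : ℕ}
    (h : σ z = z ^ j) : (cycMod M σ : ZMod M) = (j : ZMod M) := by
  rw [cycMod_spec σ hz.pow_eq_one] at h
  have hu := hz.isUnit (NeZero.ne M)
  have h2 : hu.unit ^ ((cycMod M σ : ZMod M)).val = hu.unit ^ j := Units.ext (by simpa using h)
  rw [pow_inj_mod, ← orderOf_units, IsUnit.unit_spec, ← hz.eq_orderOf] at h2
  rw [← ZMod.natCast_zmod_val (cycMod M σ : ZMod M), ZMod.natCast_eq_natCast_iff]
  exact h2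

theorem cycMod_eq_one_iff (σ : Gam) : cycMod M σ = 1 ↔ ∀ z : Qb, z ^ M = 1 → σ z = z := by
  refine ⟨fun h z hz => ?_, fun h => ?_⟩
  · rcases eq_or_ne M 1 with hM | hM
    · subst hM
      rw [pow_one] at hz
      rw [hz, map_one]
    · rw [cycMod_spec σ hz, h, Units.val_one, ZMod.val_one'' hM, pow_one]
  · obtain ⟨z, hz⟩ := HasEnoughRootsOfUnity.exists_primitiveRoot Qb M
    refine Units.ext ?_
    rw [cycMod_eq_of_apply hz (j := 1) (by rw [pow_one]; exact h z hz.pow_eq_one)]
    simp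

theorem cycMod_finiteLevel : ∃ L : IntermediateField ℚ Qb, FiniteDimensional ℚ L ∧
    ∀ σ : Gam, (∀ x ∈ L, σ x = x) → cycMod M σ = 1 := by
  obtain ⟨z, hz⟩ := HasEnoughRootsOfUnity.exists_primitiveRoot Qb M
  refine ⟨IntermediateField.adjoin ℚ {z}, IntermediateField.adjoin.finiteDimensional
      ((AlgebraicClosure.isAlgebraic ℚ).isAlgebraic z).isIntegral, fun σ hσ => Units.ext ?_⟩
  rw [cycMod_eq_of_apply hz (j := 1)
    (by rw [pow_one]; exact hσ z (IntermediateField.mem_adjoin_simple_self ℚ z))]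
  simp

theorem cycMod_castHom {M' : ℕ} [NeZero M'] (h : M ∣ M') (σ : Gam) :
    ZMod.unitsMap h (cycMod M' σ) = cycMod M σ := by
  obtain ⟨z, hz⟩ := HasEnoughRootsOfUnity.exists_primitiveRoot Qb M
  have hz' : z ^ M' = 1 := by
    obtain ⟨d, rfl⟩ := h
    rw [pow_mul, hz.pow_eq_one, one_pow]
  refine Units.ext ?_
  rw [cycMod_eq_of_apply hz (cycMod_spec σ hz'), ZMod.unitsMap_def, Units.coe_map, MonoidHom.coe_coe,
    ← ZMod.natCast_zmod_val (cycMod M' σ : ZMod M'), map_natCast, ZMod.natCast_zmod_val]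

variable {p : ℕ} {A : ValuationSubring Qb}

theorem cycMod_frobenius (hA : A.LiesOverPrime p) {φ : Gam} (hφ : A.IsFrobeniusAt φ p)
    (hM : M.Coprime p) : (cycMod M φ : ZMod M) = (p : ZMod M) := by
  obtain ⟨z, hz⟩ := HasEnoughRootsOfUnity.exists_primitiveRoot Qb M
  exact cycMod_eq_of_apply hz (Eisen.frobenius_apply_root hA hφ (NeZero.ne M) hM hz.pow_eq_one)

theorem cycMod_inertia (hp : p.Prime) (hA : A.LiesOverPrime p) {σ : Gam}
    (hσ : σ ∈ A.inertiaSubgroupIn ℚ) (hM : M.Coprime p) : cycMod M σ = 1 := by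
  obtain ⟨φ, hφ⟩ := Frobenius.exists_isFrobeniusAt hp hA
  rw [cycMod_eq_one_iff]
  exact fun z hz => RT.Gen.inertia_apply_root hp hA hφ hσ (NeZero.ne M) hM hz

theorem cycMod_complexConjugation : (cycMod M complexConjugation : ZMod M) = -1 := by
  obtain ⟨z, hz⟩ := HasEnoughRootsOfUnity.exists_primitiveRoot Qb M
  have hM : 1 ≤ M := Nat.one_le_iff_ne_zero.2 (NeZero.ne M)
  have h1 : complexConjugation z = z ^ (M - 1) := by
    have hinv : z ^ (M - 1) = z⁻¹ := eq_inv_of_mul_eq_one_left (by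
      rw [← pow_succ, Nat.sub_add_cancel hM, hz.pow_eq_one])
    apply complexEmbedding.toRingHom.injective
    show complexEmbedding (complexConjugation z) = complexEmbedding (z ^ (M - 1))
    rw [complexEmbedding_complexConjugation, hinv, map_inv₀]
    exact (Complex.inv_eq_conj (Complex.norm_eq_one_of_pow_eq_one
      (by rw [← map_pow, hz.pow_eq_one, map_one]) (NeZero.ne M))).symm
  rw [cycMod_eq_of_apply hz h1, Nat.cast_sub hM]
  simp

/-- Every class prime to `M` is the class of a Frobenius element. -/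
theorem cycMod_surjective : Function.Surjective (cycMod M) := by
  intro a
  obtain ⟨p, hpM, hp, hpa⟩ := Nat.forall_exists_prime_gt_and_eq_mod a.isUnit M
  obtain ⟨A, φ, hA, hφ⟩ := Frobenius.exists_liesOverPrime_isFrobeniusAt hp
  refine ⟨φ, Units.ext ?_⟩
  rw [cycMod_frobenius hA hφ, hpa]
  exact Nat.Coprime.symm ((hp.coprime_iff_not_dvd).2 fun h =>
    absurd (Nat.le_of_dvd (Nat.pos_of_neZero M) h) (by omega))

/-- The roots of unity of `p`-power order are totally ramified at `p`. -/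
theorem exists_mem_inertia_cycMod_eq {k : ℕ} (hp : p.Prime) (hA : A.LiesOverPrime p)
    [NeZero (p ^ k)] (a : (ZMod (p ^ k))ˣ) :
    ∃ σ ∈ A.inertiaSubgroupIn ℚ, cycMod (p ^ k) σ = a := by
  set χ := cycMod (p ^ k)
  set I := (A.inertiaSubgroupIn ℚ).map χ
  set H := I.comap χ
  have : I.Normal := inferInstance
  have : H.Normal := Subgroup.normal_comap χ
  obtain ⟨L, hL, hLχ⟩ := cycMod_finiteLevel (M := p ^ k)
  have hH : H = ⊤ := by
    refine GalChar.eq_top_of_inertia_le H L (fun σ hσ => ?_) fun q hq B hB σ hσ => ?_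
    · rw [Subgroup.mem_comap, show χ σ = 1 from
        hLχ σ ((IntermediateField.mem_fixingSubgroup_iff L σ).1 hσ)]
      exact one_mem _
    · rw [Subgroup.mem_comap]
      rcases eq_or_ne q p with rfl | hqp
      · obtain ⟨τ, hτ⟩ := Frobenius.exists_smul_eq hq hB hA
        refine Subgroup.mem_map.2 ⟨τ * σ * τ⁻¹, hτ ▸ Frobenius.inertiaSubgroupIn_conj hσ τ, ?_⟩
        rw [map_mul, map_mul, map_inv, mul_comm (χ τ), mul_inv_cancel_right]
      · rw [show χ σ = 1 from cycMod_inertia hq hB hσ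
          (((Nat.coprime_primes hp hq).2 hqp.symm).pow_left k)]
        exact one_mem _
  obtain ⟨s, hs⟩ := cycMod_surjective a
  have : s ∈ H := hH ▸ Subgroup.mem_top s
  obtain ⟨σ, hσ, hσs⟩ := Subgroup.mem_map.1 (Subgroup.mem_comap.1 this)
  exact ⟨σ, hσ, hσs.trans hs⟩

end FLTAgent.LT
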