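import Fermat.Agent.LT.Adjoint.Cyclo
import Mathlib.NumberTheory.GaussSum
import Mathlib.NumberTheory.LegendreSymbol.QuadraticChar.Basic
import Mathlib.RingTheory.Polynomial.Cyclotomic.Roots

/-!
# Square roots of integers in cyclotomic fields

An element of the Galois group fixing the roots of unity of order `8 |d|` fixes the square roots
of the integer `d` (Gauss sums).
-/

set_option autoImplicit false

noncomputable section

namespace FLTAgent.LT

theorem exists_gauss_sqrt_prime {p : ℕ} (hp : p.Prime) (hp2 : p ≠ 2) (σ : Gam)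
    (hσ : ∀ z : Qb, z ^ p = 1 → σ z = z) :
    ∃ g : Qb, (g ^ 2 = (p : Qb) ∨ g ^ 2 = -(p : Qb)) ∧ σ g = g := by
  haveI := Fact.mk hp
  haveI : NeZero p := ⟨hp.ne_zero⟩
  obtain ⟨z, hz⟩ := HasEnoughRootsOfUnity.exists_primitiveRoot Qb p
  set ψ := AddChar.zmodChar p hz.pow_eq_one
  have hψ : ψ.IsPrimitive := AddChar.zmodChar_primitive_of_primitive_root p hz
  have hchar : ringChar (ZMod p) ≠ 2 := by rwa [ZMod.ringChar_zmod_n]
  set χ := (quadraticChar (ZMod p)).ringHomComp (Int.castRingHom Qb)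
  have hq : χ.IsQuadratic := (quadraticChar_isQuadratic (ZMod p)).comp _
  have hne : χ ≠ 1 := (MulChar.ringHomComp_ne_one_iff
    (Int.castRingHom Qb).injective_int).2 (quadraticChar_ne_one hchar)
  refine ⟨gaussSum χ ψ, ?_, ?_⟩
  · rw [gaussSum_sq hne hq hψ, ZMod.card]
    rcases hq (-1) with h | h | h
    · exact absurd h ((IsUnit.neg isUnit_one).map χ).ne_zero
    · exact Or.inl (by rw [h, one_mul])
    · exact Or.inr (by rw [h, neg_one_mul])
  · rw [gaussSum, map_sum]
    refine Finset.sum_congr rfl fun x _ => ?_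
    rw [map_mul, AddChar.zmodChar_apply, map_pow, hσ z hz.pow_eq_one, MulChar.ringHomComp_apply,
      eq_intCast, map_intCast]

theorem apply_eq_of_sq {σ : Gam} {g y : Qb} (hg : σ g = g) (h : y ^ 2 = g ^ 2) : σ y = y := by
  rcases sq_eq_sq_iff_eq_or_eq_neg.1 h with rfl | rfl
  · exact hg
  · rw [map_neg, hg]

theorem apply_sqrt_nat_of_fixed (n : ℕ) : n ≠ 0 → ∀ σ : Gam,
    (∀ z : Qb, z ^ (8 * n) = 1 → σ z = z) → ∀ y : Qb, y ^ 2 = (n : Qb) → σ y = y := by
  induction n using Nat.recOnMul with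
  | zero => exact fun h => absurd rfl h
  | one => exact fun _ σ _ y hy => apply_eq_of_sq (map_one σ) (by rw [hy]; simp)
  | prime p hp =>
    intro _ σ hσ y hy
    have hsub : ∀ d : ℕ, d ∣ 8 * p → ∀ z : Qb, z ^ d = 1 → σ z = z := by
      rintro d ⟨e, he⟩ z hz
      exact hσ z (by rw [he, pow_mul, hz, one_pow])
    obtain ⟨i, hi⟩ := HasEnoughRootsOfUnity.exists_primitiveRoot Qb 4
    have hi2 : i ^ 2 = -1 := (hi.pow (by norm_num) (show 4 = 2 * 2 by norm_num)).eq_neg_one_of_two_right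
    have hiσ : σ i = i := hsub 4 (Dvd.intro (2 * p) (by ring)) i hi.pow_eq_one
    rcases eq_or_ne p 2 with rfl | hp2
    · obtain ⟨z, hz⟩ := HasEnoughRootsOfUnity.exists_primitiveRoot Qb 8
      have hz0 : z ≠ 0 := hz.ne_zero (by norm_num)
      have h4 : z ^ 4 = -1 := (hz.pow (by norm_num) (show 8 = 4 * 2 by norm_num)).eq_neg_one_of_two_right
      have hzσ : σ z = z := hsub 8 (dvd_mul_right 8 2) z hz.pow_eq_one
      refine apply_eq_of_sq (g := z + z⁻¹) (by rw [map_add, map_inv₀, hzσ]) ?_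
      rw [hy]
      push_cast
      field_simp
      linear_combination -h4
    · obtain ⟨g, hg, hgσ⟩ := exists_gauss_sqrt_prime hp hp2 σ (hsub p (dvd_mul_left p 8))
      rcases hg with hg | hg
      · exact apply_eq_of_sq hgσ (by rw [hy, hg])
      · refine apply_eq_of_sq (g := g * i) (by rw [map_mul, hgσ, hiσ]) ?_
        rw [hy, mul_pow, hg, hi2, mul_neg, mul_one, neg_neg]
  | mul a b iha ihb =>
    intro hab σ hσ y hy
    obtain ⟨ha, hb⟩ := mul_ne_zero_iff.1 hab
    obtain ⟨u, hu⟩ := IsAlgClosed.exists_pow_nat_eq (a : Qb) two_pos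
    have hu0 : u ≠ 0 := by
      rintro rfl
      rw [zero_pow two_ne_zero] at hu
      exact ha (Nat.cast_eq_zero.1 hu.symm)
    have h1 : σ u = u := iha ha σ (fun z hz => hσ z
      (by rw [← mul_assoc, pow_mul, hz, one_pow])) u hu
    have h2 : σ (y / u) = y / u := ihb hb σ (fun z hz => hσ z
      (by rw [show 8 * (a * b) = 8 * b * a by ring, pow_mul, hz, one_pow])) (y / u)
      (by rw [div_pow, hy, hu, Nat.cast_mul, mul_div_cancel_left₀ _ (Nat.cast_ne_zero.2 ha)])
    rw [← div_mul_cancel₀ y hu0, map_mul, h1, h2]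

theorem apply_sqrt_int_of_fixed {d : ℤ} (hd : d ≠ 0) (σ : Gam)
    (hσ : ∀ z : Qb, z ^ (8 * d.natAbs) = 1 → σ z = z) {y : Qb} (hy : y ^ 2 = (d : Qb)) :
    σ y = y := by
  have hn := Int.natAbs_ne_zero.2 hd
  rcases Int.natAbs_eq d with h | h
  · refine apply_sqrt_nat_of_fixed _ hn σ hσ y ?_
    rw [hy, h]
    simp
  · obtain ⟨i, hi⟩ := HasEnoughRootsOfUnity.exists_primitiveRoot Qb 4
    have hi0 : i ≠ 0 := hi.ne_zero (by norm_num)
    have hi2 : i ^ 2 = -1 := (hi.pow (by norm_num) (show 4 = 2 * 2 by norm_num)).eq_neg_one_of_two_right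
    have hiσ : σ i = i := hσ i (by
      rw [show 8 * d.natAbs = 4 * (2 * d.natAbs) by ring, pow_mul, hi.pow_eq_one, one_pow])
    have h1 : σ (y * i) = y * i := apply_sqrt_nat_of_fixed _ hn σ hσ (y * i) (by
      rw [mul_pow, hy, hi2, h]
      simp)
    rw [map_mul, hiσ] at h1
    exact mul_right_cancel₀ hi0 h1

end FLTAgent.LT
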