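import Fermat.Agent.LT.Adjoint.Cyclo
import Fermat.Agent.LT.Adjoint.SqrtInt
import Mathlib.GroupTheory.FiniteAbelian.Duality
import Mathlib.RingTheory.ZMod.UnitsCyclic

/-!
# A character whose square is a Dirichlet character is a Dirichlet character

If the square of a character of finite level of `G_ℚ` factors through the roots of unity, then
so does the character. The local obstruction at an odd prime vanishes by tame inertia, the one at
`2` by complex conjugation; a quadratic character is cyclotomic by Gauss sums.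
-/

set_option autoImplicit false
set_option linter.style.haveILetI false

noncomputable section

namespace FLTAgent.LT

open scoped Pointwise
open FLTAgent.TW.Local FLTAgent.Deformation

variable {η : Gam →* ℂˣ}

theorem exists_normal_level {G : Type*} [Group G] {f : Gam →* G}
    (hf : ∃ L : IntermediateField ℚ Qb, FiniteDimensional ℚ L ∧
      ∀ σ : Gam, (∀ x ∈ L, σ x = x) → f σ = 1) :
    ∃ F : IntermediateField ℚ Qb, FiniteDimensional ℚ F ∧ Normal ℚ F ∧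
      ∀ σ : Gam, (∀ x ∈ F, σ x = x) → f σ = 1 := by
  obtain ⟨L, hL, hker⟩ := hf
  haveI : IsAlgClosure ℚ Qb := ⟨inferInstance, AlgebraicClosure.isAlgebraic ℚ⟩
  haveI : Normal ℚ Qb := IsAlgClosure.normal ℚ Qb
  exact ⟨IntermediateField.normalClosure ℚ L Qb, normalClosure.is_finiteDimensional ℚ L Qb,
    normalClosure.normal ℚ L Qb, fun σ hσ => hker σ fun x hx => hσ x (L.le_normalClosure hx)⟩

theorem exists_pow_eq_one {G : Type*} [Group G] {f : Gam →* G}
    (hf : ∃ L : IntermediateField ℚ Qb, FiniteDimensional ℚ L ∧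
      ∀ σ : Gam, (∀ x ∈ L, σ x = x) → f σ = 1) : ∃ n : ℕ, n ≠ 0 ∧ ∀ σ, f σ ^ n = 1 := by
  obtain ⟨F, hF, hnorm, hker⟩ := exists_normal_level hf
  refine ⟨Nat.card (F ≃ₐ[ℚ] F), Nat.card_pos.ne', fun σ => ?_⟩
  rw [← map_pow]
  refine hker _ fun x hx => ?_
  have h : AlgEquiv.restrictNormalHom F (σ ^ Nat.card (F ≃ₐ[ℚ] F)) = 1 := by
    rw [map_pow, pow_card_eq_one']
  have h2 := congrArg (fun e : F ≃ₐ[ℚ] F => ((e ⟨x, hx⟩ : F) : Qb)) h
  exact (Frobenius.apply_coe_eq F _ ⟨x, hx⟩).trans h2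

/-- A character of `2`-power order is killed by `q - 1` on the inertia at an odd prime `q`. -/
theorem pow_pred_eq_one_of_inertia
    (hf : ∃ L : IntermediateField ℚ Qb, FiniteDimensional ℚ L ∧
      ∀ σ : Gam, (∀ x ∈ L, σ x = x) → η σ = 1) {a : ℕ} (ha : ∀ σ, η σ ^ 2 ^ a = 1) {q : ℕ}
    (hq : q.Prime) (hq2 : q ≠ 2) {A : ValuationSubring Qb} (hA : A.LiesOverPrime q) {σ : Gam}
    (hσ : σ ∈ A.inertiaSubgroupIn ℚ) : η σ ^ (q - 1) = 1 := by
  obtain ⟨F, hF, hnorm, hker⟩ := exists_normal_level hf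
  obtain ⟨T⟩ := TameLevel.nonempty (L := F) hq hA
  let rb : Gam →* Mat ℂ :=
    ((Matrix.scalar (Fin 2)).toMonoidHom).comp ((Units.coeHom ℂ).comp η)
  have hrb : ∀ τ, rb τ = Matrix.scalar (Fin 2) (η τ : ℂ) := fun _ => rfl
  have hwild : ∀ w, T.IsWild w → η w = 1 := by
    intro w hw
    have hm : ¬ q ∣ 2 ^ a := fun h =>
      hq2 ((Nat.prime_dvd_prime_iff_eq hq Nat.prime_two).1 (hq.dvd_of_dvd_pow h))
    have h := (TameLevel.IsWild.eq_one (T := T) (rb := rb) hq hA hw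
      (fun τ hτ => by rw [hrb, hker τ hτ]; simp) hm
      (by rw [← map_pow, hrb, map_pow η, ha w]; simp)).1
    have h00 := congrFun (congrFun h 0) 0
    rw [hrb] at h00
    exact Units.ext (by simpa using h00)
  obtain ⟨φ, hφ⟩ := Frobenius.exists_isFrobeniusAt hq hA
  obtain ⟨τ, hτ, hgen⟩ := T.exists_generator
  have hτq : η τ ^ (q - 1) = 1 := by
    have h := hwild _ (T.conj_frobenius hφ hτ)
    rw [map_mul, map_mul, map_mul, map_inv, map_inv, map_pow, mul_right_comm (η φ), mul_inv_cancel,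
      one_mul, mul_inv_eq_one] at h
    obtain ⟨d, hd⟩ := Nat.exists_eq_add_of_le' hq.one_le
    rw [hd, pow_succ] at h
    rw [hd, Nat.add_sub_cancel]
    exact right_eq_mul.1 h
  obtain ⟨n, hn⟩ := hgen σ hσ
  have h := hwild _ hn
  rw [map_mul, map_inv, inv_mul_eq_one, map_pow] at h
  rw [← h, ← pow_mul, mul_comm, pow_mul, hτq, one_pow]

theorem finLevel_powHom (hf : ∃ L : IntermediateField ℚ Qb, FiniteDimensional ℚ L ∧
      ∀ σ : Gam, (∀ x ∈ L, σ x = x) → η σ = 1) (m : ℕ) :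
    ∃ L : IntermediateField ℚ Qb, FiniteDimensional ℚ L ∧
      ∀ σ : Gam, (∀ x ∈ L, σ x = x) → ((powMonoidHom m).comp η) σ = 1 := by
  obtain ⟨L, hL, h⟩ := hf
  exact ⟨L, hL, fun σ hσ => by simp [h σ hσ]⟩

variable {M : ℕ} [NeZero M] {ψ : (ZMod M)ˣ →* ℂˣ}

/-- The sign at an odd prime lies in the kernel of the square. -/
theorem exists_sign (hf : ∃ L : IntermediateField ℚ Qb, FiniteDimensional ℚ L ∧
      ∀ σ : Gam, (∀ x ∈ L, σ x = x) → η σ = 1)
    (hψ : ∀ σ, η σ ^ 2 = ψ (cycMod M σ)) {q k : ℕ} (hq : q.Prime) (hq2 : q ≠ 2) (hk : k ≠ 0)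
    (hqk : q ^ k ∣ M) :
    ∃ e : (ZMod M)ˣ, ψ e = 1 ∧ ZMod.unitsMap hqk e = -1 ∧
      ∀ d (hd : d ∣ M), d.Coprime q → ZMod.unitsMap hd e = 1 := by
  haveI := Fact.mk hq
  haveI : NeZero (q ^ k) := ⟨pow_ne_zero _ hq.ne_zero⟩
  obtain ⟨n, hn, hη⟩ := exists_pow_eq_one hf
  obtain ⟨b, m, hm, rfl⟩ := Nat.exists_eq_pow_mul_and_not_dvd hn 2 (by norm_num)
  have hmodd : Odd m := Nat.odd_iff.2 (by omega)
  have hη' : ∀ σ, ((powMonoidHom m).comp η) σ ^ 2 ^ b = 1 := fun σ => by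
    show (η σ ^ m) ^ 2 ^ b = 1
    rw [← pow_mul, mul_comm, hη]
  obtain ⟨A, hA⟩ := Frobenius.exists_liesOverPrime hq
  haveI := ZMod.isCyclic_units_of_prime_pow q hq hq2 k
  obtain ⟨g, hg⟩ := IsCyclic.exists_generator (α := (ZMod (q ^ k))ˣ)
  obtain ⟨i, hi : g ^ i = -1⟩ := (IsOfFinOrder.mem_powers_iff_mem_zpowers
    (isOfFinOrder_of_finite g)).2 (hg (-1))
  obtain ⟨σ, hσ, hσg⟩ := exists_mem_inertia_cycMod_eq hq hA g
  refine ⟨cycMod M (σ ^ (i * m)), ?_, ?_, fun d hd hdq => ?_⟩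
  · have hdvd : q - 1 ∣ 2 * i := by
      refine (dvd_mul_left (q - 1) (q ^ (k - 1))).trans ?_
      rw [← Nat.totient_prime_pow hq (Nat.pos_of_ne_zero hk), ← ZMod.card_units_eq_totient,
        ← Nat.card_eq_fintype_card, ← orderOf_eq_card_of_forall_mem_zpowers hg,
        orderOf_dvd_iff_pow_eq_one, mul_comm, pow_mul, hi, neg_one_sq]
    obtain ⟨c, hc⟩ := hdvd
    have h := pow_pred_eq_one_of_inertia (finLevel_powHom hf m) hη' hq hq2 hA hσ
    rw [MonoidHom.comp_apply, powMonoidHom_apply] at h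
    rw [← hψ, map_pow, ← pow_mul, show i * m * 2 = m * (2 * i) by ring, hc, pow_mul, pow_mul, h,
      one_pow]
  · rw [cycMod_castHom, map_pow, hσg, pow_mul, hi, hmodd.neg_one_pow]
  · haveI : NeZero d := ⟨fun h => NeZero.ne M (Nat.eq_zero_of_zero_dvd (h ▸ hd))⟩
    rw [cycMod_castHom, map_pow, cycMod_inertia hq hA hσ hdq, one_pow]

omit [NeZero M] in
theorem unitsMap_neg {d : ℕ} (hd : d ∣ M) (y : (ZMod M)ˣ) :
    ZMod.unitsMap hd (-y) = -ZMod.unitsMap hd y :=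
  Units.ext (by simp [ZMod.unitsMap_def])

omit [NeZero M] in
theorem unitsMap_eq_iff {d : ℕ} (hd : d ∣ M) {y : (ZMod M)ˣ} {z : ℤ}
    (hz : (z : ZMod M) = (y : ZMod M)) (s : ℤ) {u : (ZMod d)ˣ} (hu : (s : ZMod d) = (u : ZMod d)) :
    ZMod.unitsMap hd y = u ↔ (d : ℤ) ∣ z - s := by
  rw [Units.ext_iff, ← ZMod.intCast_zmod_eq_zero_iff_dvd, Int.cast_sub, sub_eq_zero, hu]
  refine Eq.congr ?_ rfl
  rw [ZMod.unitsMap_def, Units.coe_map, MonoidHom.coe_coe, ← hz, map_intCast]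

/-- A unit with all components equal to one is one. -/
theorem eq_one_of_components {y : (ZMod M)ˣ}
    (h : ∀ q : ℕ, q.Prime → ZMod.unitsMap (Nat.ordProj_dvd M q) y = 1) : y = 1 := by
  have hz : (((y : ZMod M).cast : ℤ) : ZMod M) = (y : ZMod M) := ZMod.intCast_zmod_cast _
  set z : ℤ := (y : ZMod M).cast
  have hdvd : (M : ℤ) ∣ z - 1 := by
    rw [Int.natCast_dvd, Nat.dvd_iff_prime_pow_dvd_dvd]
    intro p k hp hpk
    have h1 := (unitsMap_eq_iff (Nat.ordProj_dvd M p) hz 1 (u := 1) (by simp)).1 (h p hp)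
    rw [Int.natCast_dvd] at h1
    exact (pow_dvd_pow p ((hp.pow_dvd_iff_le_factorization (NeZero.ne M)).1 hpk)).trans h1
  rw [← ZMod.intCast_zmod_eq_zero_iff_dvd, Int.cast_sub, hz, sub_eq_zero, Int.cast_one] at hdvd
  exact Units.ext hdvd

/-- Products of signs at odd primes lie in the kernel of the square. -/
theorem psi_eq_one_of_signs (hf : ∃ L : IntermediateField ℚ Qb, FiniteDimensional ℚ L ∧
      ∀ σ : Gam, (∀ x ∈ L, σ x = x) → η σ = 1)
    (hψ : ∀ σ, η σ ^ 2 = ψ (cycMod M σ)) (T : Finset ℕ) :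
    (∀ q ∈ T, q.Prime ∧ q ≠ 2) → ∀ y : (ZMod M)ˣ,
    (∀ q : ℕ, q.Prime → ZMod.unitsMap (Nat.ordProj_dvd M q) y = 1 ∨
      (q ∈ T ∧ ZMod.unitsMap (Nat.ordProj_dvd M q) y = -1)) → ψ y = 1 := by
  induction T using Finset.induction_on with
  | empty =>
    intro _ y hy
    rw [eq_one_of_components fun q hq => (hy q hq).resolve_right (by simp), map_one]
  | insert q T hqT ih =>
    intro hT y hy
    obtain ⟨hqp, hq2⟩ := hT q (Finset.mem_insert_self q T)
    have hT' : ∀ r ∈ T, r.Prime ∧ r ≠ 2 := fun r hr => hT r (Finset.mem_insert_of_mem hr)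
    rcases eq_or_ne (ZMod.unitsMap (Nat.ordProj_dvd M q) y) 1 with h1 | h1
    · refine ih hT' y fun r hr => ?_
      rcases hy r hr with h | ⟨hm, h⟩
      · exact Or.inl h
      · rcases Finset.mem_insert.1 hm with rfl | hm
        · exact Or.inl h1
        · exact Or.inr ⟨hm, h⟩
    · have hv : M.factorization q ≠ 0 := fun hv => h1 (by
        haveI : Subsingleton (ZMod (q ^ M.factorization q)) := by
          rw [hv, pow_zero]; exact inferInstanceAs (Subsingleton (Fin 1))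
        exact Subsingleton.elim _ _)
      obtain ⟨e, hψe, hqe, hde⟩ := exists_sign hf hψ hqp hq2 hv (Nat.ordProj_dvd M q)
      have key : ψ (y * e) = 1 := by
        refine ih hT' _ fun r hr => ?_
        rw [map_mul]
        rcases eq_or_ne r q with rfl | hrq
        · refine Or.inl ?_
          rcases hy r hr with h | ⟨_, h⟩
          · exact absurd h h1
          · rw [h, hqe, neg_one_mul, neg_neg]
        · rw [hde _ (Nat.ordProj_dvd M r) (((Nat.coprime_primes hr hqp).2 hrq).pow_left _), mul_one]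
          rcases hy r hr with h | ⟨hm, h⟩
          · exact Or.inl h
          · exact Or.inr ⟨(Finset.mem_insert.1 hm).resolve_left hrq, h⟩
      rwa [map_mul, hψe, mul_one] at key

theorem int_sign_of_sq_odd {q : ℕ} (hq : q.Prime) (hq2 : q ≠ 2) {v : ℕ} {z : ℤ}
    (h : ((q ^ v : ℕ) : ℤ) ∣ z ^ 2 - 1) :
    ((q ^ v : ℕ) : ℤ) ∣ z - 1 ∨ ((q ^ v : ℕ) : ℤ) ∣ z + 1 := by
  have hp : Prime (q : ℤ) := Nat.prime_iff_prime_int.1 hq
  rw [Nat.cast_pow, show z ^ 2 - 1 = (z - 1) * (z + 1) by ring] at *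
  by_cases h1 : (q : ℤ) ∣ z - 1
  · refine Or.inl (IsCoprime.dvd_of_dvd_mul_right (IsCoprime.pow_left ?_) h)
    refine hp.coprime_iff_not_dvd.2 fun h2 => ?_
    have h3 : (q : ℤ) ∣ ((2 : ℕ) : ℤ) := by simpa using dvd_sub h2 h1 |>.trans (by ring_nf; simp)
    exact hq2 ((Nat.prime_dvd_prime_iff_eq hq Nat.prime_two).1 (Int.natCast_dvd_natCast.1 h3))
  · exact Or.inr (IsCoprime.dvd_of_dvd_mul_left (IsCoprime.pow_left (hp.coprime_iff_not_dvd.2 h1)) h)

theorem int_sign_of_sq_two {v : ℕ} {z : ℤ} (h : ((2 ^ (v + 2) : ℕ) : ℤ) ∣ z ^ 2 - 1) :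
    ((2 ^ v : ℕ) : ℤ) ∣ z - 1 ∨ ((2 ^ v : ℕ) : ℤ) ∣ z + 1 := by
  push_cast at h ⊢
  have hp : Prime (2 : ℤ) := Int.prime_two
  obtain ⟨t, rfl⟩ : Odd z := by
    rcases Int.even_or_odd z with ⟨t, rfl⟩ | ho
    · have : (2 : ℤ) ∣ (t + t) ^ 2 - 1 := (dvd_pow_self 2 (by omega)).trans h
      obtain ⟨c, hc⟩ := this
      ring_nf at hc
      omega
    · exact ho
  rw [pow_add, show (2 * t + 1) ^ 2 - 1 = t * (t + 1) * 4 by ring,
    show (2 : ℤ) ^ 2 = 4 by norm_num] at h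
  have h' : (2 : ℤ) ^ v ∣ t * (t + 1) := (mul_dvd_mul_iff_right (by norm_num)).1 h
  by_cases h1 : (2 : ℤ) ∣ t
  · refine Or.inl ?_
    have : (2 : ℤ) ^ v ∣ t := IsCoprime.dvd_of_dvd_mul_right (IsCoprime.pow_left
      (hp.coprime_iff_not_dvd.2 (by omega))) h'
    simpa using this.mul_left 2
  · refine Or.inr ?_
    have : (2 : ℤ) ^ v ∣ t + 1 :=
      IsCoprime.dvd_of_dvd_mul_left (IsCoprime.pow_left (hp.coprime_iff_not_dvd.2 h1)) h'
    simpa [mul_add, add_assoc] using this.mul_left 2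

/-- The square roots of one modulo `4 M` lie in the kernel. -/
theorem psi_eq_one_of_sq (hf : ∃ L : IntermediateField ℚ Qb, FiniteDimensional ℚ L ∧
      ∀ σ : Gam, (∀ x ∈ L, σ x = x) → η σ = 1)
    (hψ : ∀ σ, η σ ^ 2 = ψ (cycMod M σ)) (hMM : M ∣ 4 * M) {x : (ZMod (4 * M))ˣ} (hx : x ^ 2 = 1) :
    ψ (ZMod.unitsMap hMM x) = 1 := by
  haveI : NeZero (4 * M) := ⟨mul_ne_zero (by norm_num) (NeZero.ne M)⟩
  have hz : (((x : ZMod (4 * M)).cast : ℤ) : ZMod (4 * M)) = (x : ZMod (4 * M)) :=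
    ZMod.intCast_zmod_cast _
  set z : ℤ := (x : ZMod (4 * M)).cast
  have hsq : ((4 * M : ℕ) : ℤ) ∣ z ^ 2 - 1 := by
    rw [← ZMod.intCast_zmod_eq_zero_iff_dvd, Int.cast_sub, Int.cast_pow, hz,
      ← Units.val_pow_eq_pow_val, hx, Units.val_one, Int.cast_one, sub_self]
  set y := ZMod.unitsMap hMM x
  have hy : (z : ZMod M) = (y : ZMod M) := by
    rw [show (y : ZMod M) = ZMod.castHom hMM (ZMod M) (x : ZMod (4 * M)) from rfl, ← hz, map_intCast]
  -- complex conjugation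
  have hneg : ψ (-1) = 1 := by
    rw [show (-1 : (ZMod M)ˣ) = cycMod M complexConjugation from
      Units.ext (by rw [cycMod_complexConjugation]; simp), ← hψ, ← map_pow, pow_two,
      complexConjugation_mul_self, map_one]
  -- the signs
  have hsigns : ∀ q : ℕ, q.Prime →
      ZMod.unitsMap (Nat.ordProj_dvd M q) y = 1 ∨ ZMod.unitsMap (Nat.ordProj_dvd M q) y = -1 := by
    intro q hq
    rw [unitsMap_eq_iff _ hy 1 (by simp), unitsMap_eq_iff _ hy (-1) (by simp), sub_neg_eq_add]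
    rcases eq_or_ne q 2 with rfl | hq2
    · refine int_sign_of_sq_two ((Int.natCast_dvd_natCast.2 ?_).trans hsq)
      rw [pow_add, mul_comm, show (2 : ℕ) ^ 2 = 4 by norm_num]
      exact mul_dvd_mul_left 4 (Nat.ordProj_dvd M 2)
    · exact int_sign_of_sq_odd hq hq2 ((Int.natCast_dvd_natCast.2
        ((Nat.ordProj_dvd M q).trans (dvd_mul_left M 4))).trans hsq)
  have hsub : ∀ q : ℕ, q.Prime → ¬ q ∣ M → ∀ u : (ZMod (q ^ M.factorization q))ˣ, u = 1 := by
    intro q _ hqM u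
    haveI : Subsingleton (ZMod (q ^ M.factorization q)) := by
      rw [Nat.factorization_eq_zero_of_not_dvd hqM, pow_zero]
      exact inferInstanceAs (Subsingleton (Fin 1))
    exact Subsingleton.elim _ _
  have main : ∀ w : (ZMod M)ˣ, (∀ q : ℕ, q.Prime →
      ZMod.unitsMap (Nat.ordProj_dvd M q) w = 1 ∨ ZMod.unitsMap (Nat.ordProj_dvd M q) w = -1) →
      ZMod.unitsMap (Nat.ordProj_dvd M 2) w = 1 → ψ w = 1 := fun w hw h2 => by
    refine psi_eq_one_of_signs hf hψ (M.primeFactors.erase 2)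
      (fun q hq => ⟨Nat.prime_of_mem_primeFactors (Finset.mem_of_mem_erase hq),
        Finset.ne_of_mem_erase hq⟩) w fun q hq => ?_
    rcases eq_or_ne q 2 with rfl | hq2
    · exact Or.inl h2
    · by_cases hqM : q ∣ M
      · exact (hw q hq).imp_right fun h =>
          ⟨Finset.mem_erase.2 ⟨hq2, Nat.mem_primeFactors.2 ⟨hq, hqM, NeZero.ne M⟩⟩, h⟩
      · exact Or.inl (hsub q hq hqM _)
  rcases hsigns 2 Nat.prime_two with h | h
  · exact main y hsigns h
  · have h' := main (-y) (fun q hq => by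
      rw [unitsMap_neg]
      rcases hsigns q hq with h | h
      · exact Or.inr (by rw [h])
      · exact Or.inl (by rw [h, neg_neg])) (by rw [unitsMap_neg, h, neg_neg])
    rwa [← neg_one_mul, map_mul, hneg, one_mul] at h'

/-- The square root of the character of a cyclotomic square. -/
theorem exists_sqrt_char (hf : ∃ L : IntermediateField ℚ Qb, FiniteDimensional ℚ L ∧
      ∀ σ : Gam, (∀ x ∈ L, σ x = x) → η σ = 1)
    (hψ : ∀ σ, η σ ^ 2 = ψ (cycMod M σ)) [NeZero (4 * M)] :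
    ∃ χ : (ZMod (4 * M))ˣ →* ℂˣ, ∀ σ, η σ ^ 2 = χ (cycMod (4 * M) σ) ^ 2 := by
  have hMM : M ∣ 4 * M := dvd_mul_left M 4
  set G := (ZMod (4 * M))ˣ
  set s : G →* G := powMonoidHom 2
  set ψ' : G →* ℂˣ := ψ.comp (ZMod.unitsMap hMM)
  have hker : s.rangeRestrict.ker ≤ ψ'.ker := fun x hx => by
    rw [MonoidHom.ker_rangeRestrict, MonoidHom.mem_ker] at hx
    exact psi_eq_one_of_sq hf hψ hMM hx
  set χ0 := MonoidHom.liftOfSurjective s.rangeRestrict s.rangeRestrict_surjective ⟨ψ', hker⟩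
  obtain ⟨χ, hχ⟩ := MonoidHom.domRestrict_surjective (M := ℂ) s.range χ0
  refine ⟨χ, fun σ => ?_⟩
  have h1 : χ (s (cycMod (4 * M) σ)) = χ0 (s.rangeRestrict (cycMod (4 * M) σ)) := by
    rw [← hχ]; rfl
  have h2 : χ0 (s.rangeRestrict (cycMod (4 * M) σ)) = ψ' (cycMod (4 * M) σ) :=
    MonoidHom.liftOfRightInverse_comp_apply _ _ _ _ _
  rw [hψ, ← map_pow, ← cycMod_castHom hMM]
  exact (h1.trans h2).symm

end FLTAgent.LT
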