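import Fermat.Agent.LT.Adjoint.Dirichlet

/-!
# The cyclotomic conclusion

A character of finite level whose square is cyclotomic is cyclotomic.
-/

set_option autoImplicit false
set_option linter.style.haveILetI false

noncomputable section

namespace FLTAgent.LT

variable {η : Gam →* ℂˣ}

theorem exists_int_of_quadratic
    (hf : ∃ L : IntermediateField ℚ Qb, FiniteDimensional ℚ L ∧
      ∀ σ : Gam, (∀ x ∈ L, σ x = x) → η σ = 1) (h2 : ∀ σ, η σ ^ 2 = 1) :
    ∃ D : ℕ, D ≠ 0 ∧ ∀ σ : Gam, (∀ z : Qb, z ^ D = 1 → σ z = z) → η σ = 1 := by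
  by_cases hall : ∀ σ, η σ = 1
  · exact ⟨1, one_ne_zero, fun σ _ => hall σ⟩
  push Not at hall
  obtain ⟨σ₀, hσ₀⟩ := hall
  haveI := Octa.isGalois_Qb
  have hval : ∀ σ, η σ = 1 ∨ η σ = -1 := fun σ => by
    rcases sq_eq_one_iff.1 (show ((η σ : ℂ)) ^ 2 = 1 by
      rw [← Units.val_pow_eq_pow_val, h2, Units.val_one]) with h | h
    · exact Or.inl (Units.ext h)
    · exact Or.inr (Units.ext (by simpa using h))
  have hneg : η σ₀ = -1 := (hval σ₀).resolve_left hσ₀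
  set H := η.ker with hH
  have hopen : IsOpen (H : Set Gam) := by
    obtain ⟨L, hL, hker⟩ := hf
    exact Subgroup.isOpen_mono
      (fun σ hσ => hker σ ((IntermediateField.mem_fixingSubgroup_iff L σ).1 hσ))
      L.fixingSubgroup_isOpen
  have hfix := (Octa.fixing_of_open hopen).1
  set K := IntermediateField.fixedField H
  obtain ⟨θ, hθK, hθ⟩ : ∃ θ ∈ K, σ₀ θ ≠ θ := by
    by_contra hcon
    push Not at hcon
    have : σ₀ ∈ K.fixingSubgroup := (IntermediateField.mem_fixingSubgroup_iff K σ₀).2 hcon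
    rw [hfix, hH, MonoidHom.mem_ker] at this
    exact hσ₀ this
  have hfixH : ∀ τ, η τ = 1 → τ θ = θ := fun τ hτ =>
    (IntermediateField.mem_fixedField_iff H θ).1 hθK τ (MonoidHom.mem_ker.2 hτ)
  set δ := θ - σ₀ θ
  have hδ1 : ∀ τ, η τ = 1 → τ δ = δ := fun τ hτ => by
    have : (σ₀⁻¹ * τ * σ₀) θ = θ := hfixH _ (by
      rw [map_mul, map_mul, hτ, mul_one, ← map_mul, inv_mul_cancel, map_one])
    have h' := congrArg σ₀ this
    rw [← AlgEquiv.mul_apply, mul_assoc, mul_inv_cancel_left, AlgEquiv.mul_apply] at h'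
    simp only [δ, map_sub, hfixH τ hτ, h']
  have hσδ : σ₀ δ = -δ := by
    have : (σ₀ * σ₀) θ = θ := hfixH _ (by rw [map_mul, hneg, neg_one_mul, neg_neg])
    rw [AlgEquiv.mul_apply] at this
    simp only [δ, map_sub, this, neg_sub]
  have hδ2 : ∀ τ, η τ = -1 → τ δ = -δ := fun τ hτ => by
    have h' := congrArg σ₀ (hδ1 (σ₀⁻¹ * τ) (by rw [map_mul, map_inv, hτ, hneg, inv_mul_cancel]))
    rw [← AlgEquiv.mul_apply, mul_inv_cancel_left, hσδ] at h'
    exact h'
  have hδ0 : δ ≠ 0 := sub_ne_zero.2 (Ne.symm hθ)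
  obtain ⟨r, hr⟩ := GalChar.exists_rat_of_fixed (x := δ ^ 2) fun σ => by
    rcases hval σ with h | h
    · rw [map_pow, hδ1 σ h]
    · rw [map_pow, hδ2 σ h, neg_sq]
  have hr' : (r : Qb) = δ ^ 2 := by rw [← hr]; simp
  have hr0 : r ≠ 0 := by
    rintro rfl
    exact pow_ne_zero 2 hδ0 (by rw [← hr']; simp)
  set d : ℤ := r.num * r.den
  have hd : d ≠ 0 := mul_ne_zero (Rat.num_ne_zero.2 hr0) (by simp)
  refine ⟨8 * d.natAbs, by simpa using hd, fun σ hσ => ?_⟩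
  have hy : (δ * (r.den : Qb)) ^ 2 = (d : Qb) := by
    rw [mul_pow, ← hr']
    conv_lhs => arg 1; rw [Rat.cast_def]
    simp only [d]
    push_cast
    field_simp
  have h := apply_sqrt_int_of_fixed hd σ hσ hy
  rw [map_mul, map_natCast] at h
  rcases hval σ with h1 | h1
  · exact h1
  · rw [hδ2 σ h1] at h
    have := mul_right_cancel₀ (Nat.cast_ne_zero.2 r.den_nz) h
    exact absurd (neg_eq_self.1 this) hδ0

/-- A character with cyclotomic square is cyclotomic. -/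
theorem exists_dirichlet_of_sq
    (hf : ∃ L : IntermediateField ℚ Qb, FiniteDimensional ℚ L ∧
      ∀ σ : Gam, (∀ x ∈ L, σ x = x) → η σ = 1) {M : ℕ} [NeZero M] (ψ : (ZMod M)ˣ →* ℂˣ)
    (hψ : ∀ σ, η σ ^ 2 = ψ (cycMod M σ)) :
    ∃ (M' : ℕ) (_ : NeZero M') (χ : (ZMod M')ˣ →* ℂˣ), ∀ σ, η σ = χ (cycMod M' σ) := by
  haveI : NeZero (4 * M) := ⟨mul_ne_zero (by norm_num) (NeZero.ne M)⟩
  obtain ⟨χ, hχ⟩ := exists_sqrt_char hf hψ
  set η₀ : Gam →* ℂˣ := η / χ.comp (cycMod (4 * M))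
  have hf0 : ∃ L : IntermediateField ℚ Qb, FiniteDimensional ℚ L ∧
      ∀ σ : Gam, (∀ x ∈ L, σ x = x) → η₀ σ = 1 := by
    obtain ⟨L, hL, hker⟩ := hf
    obtain ⟨L', hL', hker'⟩ := cycMod_finiteLevel (M := 4 * M)
    refine ⟨L ⊔ L', IntermediateField.finiteDimensional_sup L L', fun σ hσ => ?_⟩
    show η σ / χ (cycMod (4 * M) σ) = 1
    rw [hker σ fun x hx => hσ x (le_sup_left (b := L') hx),
      hker' σ fun x hx => hσ x (le_sup_right (a := L) hx), map_one, div_one]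
  obtain ⟨D, hD, hDker⟩ := exists_int_of_quadratic hf0 fun σ => by
    show (η σ / χ (cycMod (4 * M) σ)) ^ 2 = 1
    rw [div_pow, hχ, div_self']
  haveI : NeZero (4 * M * D) := ⟨mul_ne_zero (NeZero.ne _) hD⟩
  have hker : (cycMod (4 * M * D)).ker ≤ η.ker := fun σ hσ => by
    rw [MonoidHom.mem_ker] at hσ ⊢
    have h1 : cycMod (4 * M) σ = 1 := by
      rw [← cycMod_castHom (dvd_mul_right (4 * M) D), hσ, map_one]
    have h2 : η σ / χ (cycMod (4 * M) σ) = 1 := hDker σ fun z hz =>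
      (cycMod_eq_one_iff σ).1 hσ z (by rw [mul_comm, pow_mul, hz, one_pow])
    rwa [h1, map_one, div_one] at h2
  exact ⟨4 * M * D, inferInstance,
    MonoidHom.liftOfSurjective (cycMod (4 * M * D)) cycMod_surjective ⟨η, hker⟩,
    fun σ => (MonoidHom.liftOfRightInverse_comp_apply (cycMod (4 * M * D)) _ _ ⟨η, hker⟩ σ).symm⟩

end FLTAgent.LT
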