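import Fermat.Agent.LT.Adjoint.Proj
import Mathlib.LinearAlgebra.Matrix.GeneralLinearGroup.Basic

/-!
# The twisting character

The complex lift of `GL₂(𝔽₃)` and the character by which a representation with the same squared
traces on the quaternion part differs from it.
-/

set_option autoImplicit false
set_option linter.style.haveILetI false

noncomputable section

namespace FLTAgent.LT

open Matrix FLT.ExplicitLift

theorem iotaC_injective : Function.Injective iotaC :=
  Zsqrtd.lift_injective _ fun n h => by nlinarith [mul_self_nonneg n]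

variable (L : G3 →* GL (Fin 2) (ℤ√(-2)))

/-- The complex lift. -/
def liftC : G3 →* GL (Fin 2) ℂ := (Matrix.GeneralLinearGroup.map iotaC).comp L

theorem val_liftC (g : G3) :
    (liftC L g : M2C) = (L g : Matrix (Fin 2) (Fin 2) (ℤ√(-2))).map iotaC := rfl

theorem trace_liftC (g : G3) :
    (liftC L g : M2C).trace = iotaC (L g : Matrix (Fin 2) (Fin 2) (ℤ√(-2))).trace := by
  rw [val_liftC, trace_fin_two, trace_fin_two, map_add]; rfl

theorem det_liftC (g : G3) :
    (liftC L g : M2C).det = iotaC (L g : Matrix (Fin 2) (Fin 2) (ℤ√(-2))).det := by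
  rw [val_liftC, RingHom.map_det]; rfl

variable {L}
variable (hL : ∀ g, Matrix.GeneralLinearGroup.map red (L g) = g)
include hL

theorem red_lift_val (g : G3) :
    (L g : Matrix (Fin 2) (Fin 2) (ℤ√(-2))).map red = (g : Matrix (Fin 2) (Fin 2) (ZMod 3)) :=
  congrArg Units.val (hL g)

theorem red_trace (g : G3) :
    red (L g : Matrix (Fin 2) (Fin 2) (ℤ√(-2))).trace =
      (g : Matrix (Fin 2) (Fin 2) (ZMod 3)).trace := by
  rw [← red_lift_val hL g, trace_fin_two, trace_fin_two, map_add]; rfl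

theorem liftC_injective : Function.Injective (liftC L) := by
  intro g k h
  have h' : L g = L k := Units.ext (Matrix.map_injective iotaC_injective (congrArg Units.val h))
  rw [← hL g, h', hL k]

theorem liftC_neg_one : liftC L (-1) = -1 := by
  set X : M2C := (liftC L (-1) : M2C)
  have hX : X * X = 1 := by
    show (liftC L (-1) : M2C) * (liftC L (-1) : M2C) = 1
    rw [← Units.val_mul, ← map_mul, neg_one_mul, neg_neg, map_one, Units.val_one]
  have htr : X.trace ≠ 0 := fun h => by
    rw [trace_liftC, map_eq_zero_iff iotaC iotaC_injective] at h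
    have h' := red_trace hL (-1)
    rw [h, map_zero] at h'
    revert h'; decide
  have hmem : ∃ c : ℂ, X = c • 1 := by
    have hCH : X * X - X.trace • X + X.det • (1 : M2C) = 0 := by
      ext i j
      fin_cases i <;> fin_cases j <;>
        simp [mul_apply, Fin.sum_univ_two, det_fin_two, trace_fin_two] <;> ring
    rw [hX] at hCH
    refine ⟨(1 + X.det) / X.trace, ?_⟩
    rw [div_eq_inv_mul, ← smul_smul, show (1 + X.det) • (1 : M2C) = X.trace • X by
      rw [add_smul, one_smul]; rw [← sub_eq_zero, ← hCH]; abel, smul_smul, inv_mul_cancel₀ htr,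
      one_smul]
  obtain ⟨c, hc⟩ := hmem
  have hc2 : c ^ 2 = 1 := by
    have e := congrFun (congrFun hX 0) 0
    simp [hc, mul_apply] at e
    rw [← e]; ring
  rcases sq_eq_one_iff.1 hc2 with rfl | rfl
  · exfalso
    have h1 : liftC L (-1) = liftC L 1 :=
      Units.ext (show X = _ by rw [map_one, Units.val_one]; simpa using hc)
    exact absurd (liftC_injective hL h1) (by decide)
  · exact Units.ext (show X = _ by simpa using hc)

theorem liftC_neg (g : G3) : liftC L (-g) = -liftC L g := by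
  rw [← neg_one_mul, map_mul, liftC_neg_one hL, neg_one_mul]

theorem trace_liftC_q8 {l : Fin 4} (hl : l ≠ 0) : (liftC L (q8 l) : M2C).trace = 0 := by
  obtain ⟨m, hm⟩ := (q8_conj_neg l).resolve_left hl
  have h := congrArg (fun g => (liftC L g : M2C).trace) hm
  simp only [map_mul, map_inv, Units.val_mul] at h
  rw [Matrix.trace_units_conj, liftC_neg hL, Units.val_neg, trace_neg] at h
  linear_combination (1 / 2 : ℂ) * h

/-- The determinant of the lift is the sign of the determinant. -/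
theorem det_lift (g : G3) :
    ((Matrix.GeneralLinearGroup.det g : ZMod 3) = 1 ∧
        (L g : Matrix (Fin 2) (Fin 2) (ℤ√(-2))).det = 1) ∨
      ((Matrix.GeneralLinearGroup.det g : ZMod 3) = -1 ∧
        (L g : Matrix (Fin 2) (Fin 2) (ℤ√(-2))).det = -1) := by
  set d := (L g : Matrix (Fin 2) (Fin 2) (ℤ√(-2))).det
  have hu : IsUnit d := (Matrix.GeneralLinearGroup.det (L g)).isUnit
  have hred : red d = (Matrix.GeneralLinearGroup.det g : ZMod 3) := by
    rw [show (Matrix.GeneralLinearGroup.det g : ZMod 3)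
      = (g : Matrix (Fin 2) (Fin 2) (ZMod 3)).det from rfl, ← red_lift_val hL g, RingHom.map_det]
    rfl
  have hnorm : d.norm = 1 := by
    have h := Zsqrtd.norm_eq_one_iff.2 hu
    have := Zsqrtd.norm_nonneg (d := -2) (by norm_num) d
    omega
  rw [Zsqrtd.norm_def] at hnorm
  have him : d.im = 0 := by nlinarith [mul_self_nonneg d.re, mul_self_nonneg d.im]
  have hre : (d.re - 1) * (d.re + 1) = 0 := by rw [him] at hnorm; linear_combination hnorm
  rcases mul_eq_zero.1 hre with h | h
  · have : d = 1 := Zsqrtd.ext (by simpa using sub_eq_zero.1 h) (by simpa using him)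
    exact Or.inl ⟨by rw [← hred, this, map_one], this⟩
  · have : d = -1 := Zsqrtd.ext (by simpa using eq_neg_of_add_eq_zero_left h) (by simpa using him)
    exact Or.inr ⟨by rw [← hred, this, map_neg, map_one], this⟩

variable {Γ : Type*} [Group Γ]

/-- The twisting character. -/
theorem exists_twist_char (R : Γ →* G3) (hR : Function.Surjective R) (ρ : Γ →* GL (Fin 2) ℂ)
    (hfin : ∀ σ, ∃ n : ℕ, n ≠ 0 ∧ ρ σ ^ n = 1)
    (h : ∀ σ, R σ ∈ Octa.quat → ∃ w : ℂ, ‖w‖ = 1 ∧
      (ρ σ : M2C).trace ^ 2 = w * (liftC L (R σ) : M2C).trace ^ 2) :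
    ∃ η : Γ →* ℂˣ, ∀ σ, (ρ σ : M2C).trace = η σ * (liftC L (R σ) : M2C).trace ∧
      (ρ σ : M2C).det = (η σ : ℂ) ^ 2 * (liftC L (R σ) : M2C).det := by
  set π := QuotientGroup.mk' (Subgroup.center (GL (Fin 2) ℂ))
  have hπ : ∀ x y : GL (Fin 2) ℂ, π x = π y ↔ ∃ c : ℂ, (y : M2C) = c • (x : M2C) := by
    intro x y
    rw [QuotientGroup.mk'_apply, QuotientGroup.mk'_apply, QuotientGroup.eq,
      Matrix.GeneralLinearGroup.mem_center_iff_val_mem_range_scalar]
    constructor
    · rintro ⟨c, hc⟩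
      refine ⟨c, ?_⟩
      have h' := congrArg ((x : M2C) * ·) hc
      simp only [Units.val_mul, ← mul_assoc, ← Units.val_mul, mul_inv_cancel, Units.val_one,
        one_mul] at h'
      rw [← h']
      simp [Matrix.scalar_apply, ← smul_one_eq_diagonal, Matrix.mul_smul]
    · rintro ⟨c, hc⟩
      refine ⟨c, ?_⟩
      rw [Units.val_mul, hc, mul_smul_comm, ← Units.val_mul, inv_mul_cancel, Units.val_one,
        Matrix.scalar_apply, smul_one_eq_diagonal]
  set θ := π.comp (liftC L)
  have hneg : θ (-1) = 1 := by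
    rw [MonoidHom.comp_apply, liftC_neg_one hL, ← map_one π, hπ]
    exact ⟨-1, by simp⟩
  have hne : ∀ l : Fin 4, l ≠ 0 → θ (q8 l) ≠ 1 := by
    intro l hl he
    rw [MonoidHom.comp_apply, eq_comm, ← map_one π, hπ] at he
    obtain ⟨c, hc⟩ := he
    rw [Units.val_one] at hc
    have ht := trace_liftC_q8 hL hl
    rw [hc, trace_smul, trace_one] at ht
    have : c = 0 := by simpa using ht
    rw [this, zero_smul] at hc
    exact (liftC L (q8 l)).ne_zero hc
  have htrace : ∀ {σ} {k : Fin 4}, UpSign (R σ) (q8 k) → k ≠ 0 → (ρ σ : M2C).trace = 0 := by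
    intro σ k hσ hk
    obtain ⟨w, -, hw⟩ := h σ (mem_quat_of_upSign hσ)
    have : (liftC L (R σ) : M2C).trace = 0 := by
      rcases hσ with hσ | hσ <;> rw [hσ]
      · exact trace_liftC_q8 hL hk
      · rw [liftC_neg hL, Units.val_neg, trace_neg, trace_liftC_q8 hL hk, neg_zero]
    rw [this, zero_pow two_ne_zero, mul_zero] at hw
    exact sq_eq_zero_iff.1 hw
  have hscal : ∀ σ, UpSign (R σ) 1 → π (ρ σ) = 1 := by
    intro σ hσ
    obtain ⟨w, hw1, hw⟩ := h σ (mem_quat_of_upSign (k := 0) hσ)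
    have h4 : (liftC L (R σ) : M2C).trace ^ 2 = 4 := by
      rcases hσ with hσ | hσ <;> rw [hσ]
      · simp [trace_fin_two]; norm_num
      · rw [liftC_neg_one hL]; simp [trace_fin_two]; norm_num
    have htr : ‖(ρ σ : M2C).trace‖ = 2 := by
      have := congrArg (‖·‖) hw
      rw [h4, norm_pow, norm_mul, hw1, one_mul, Complex.norm_ofNat] at this
      nlinarith [norm_nonneg (ρ σ : M2C).trace]
    obtain ⟨n, hn, hρ⟩ := hfin σ
    obtain ⟨c, hc⟩ := eq_smul_one_of_finite_order hn
      (by rw [← Units.val_pow_eq_pow_val, hρ, Units.val_one]) htr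
    rw [eq_comm, ← map_one π, hπ]
    exact ⟨c, by rw [hc, Units.val_one]⟩
  obtain ⟨a, ha⟩ := hR g3I
  obtain ⟨b, hb⟩ := hR g3J
  have hab : R (a * b) = q8 3 := by rw [map_mul, ha, hb]; rfl
  have hta := htrace (σ := a) (k := 1) (Or.inl ha) (by decide)
  have htb := htrace (σ := b) (k := 2) (Or.inl hb) (by decide)
  have htab := htrace (Or.inl hab) (by decide)
  rw [map_mul, Units.val_mul] at htab
  have dne : ∀ x : GL (Fin 2) ℂ, (x : M2C).det ≠ 0 := fun x =>
    (Matrix.GeneralLinearGroup.det x).ne_zero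
  obtain ⟨Q', α', β', hQ', hα', hβ', hA', hB'⟩ := exists_normal_form hta htb
    (anticomm_of_traces hta htb htab) (dne _) (dne _)
  have htI : (liftC L g3I : M2C).trace = 0 := trace_liftC_q8 hL (l := 1) (by decide)
  have htJ : (liftC L g3J : M2C).trace = 0 := trace_liftC_q8 hL (l := 2) (by decide)
  have htIJ : ((liftC L g3I : M2C) * (liftC L g3J : M2C)).trace = 0 := by
    rw [← Units.val_mul, ← map_mul]; exact trace_liftC_q8 hL (l := 3) (by decide)
  obtain ⟨Q, α, β, hQ, hα, hβ, hA, hB⟩ := exists_normal_form htI htJ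
    (anticomm_of_traces htI htJ htIJ) (dne _) (dne _)
  set C := Matrix.GeneralLinearGroup.mkOfDetNeZero Q' hQ' *
    (Matrix.GeneralLinearGroup.mkOfDetNeZero Q hQ)⁻¹
  have hconj : ∀ (X' X : GL (Fin 2) ℂ) (T : M2C) (s' s : ℂ), s' ≠ 0 → s ≠ 0 →
      (X' : M2C) * Q' = s' • (Q' * T) → (X : M2C) * Q = s • (Q * T) →
      π C⁻¹ * π X' * π C = π X := by
    intro X' X T s' s hs' hs hX' hX
    rw [← map_mul, ← map_mul, hπ]
    refine ⟨s / s', ?_⟩
    have hC : (C : M2C) * Q = Q' := by
      show Q' * _ * Q = Q'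
      rw [mul_assoc]
      convert mul_one Q' using 2
      exact (Matrix.GeneralLinearGroup.mkOfDetNeZero Q hQ).inv_val
    have hXX : (X' : M2C) * C = (s' / s) • ((C : M2C) * X) := by
      have hu : IsUnit Q.det := isUnit_iff_ne_zero.2 hQ
      have h1 : (X' : M2C) * C * Q = (s' / s) • ((C : M2C) * X) * Q := by
        rw [mul_assoc, hC, hX', smul_mul_assoc, mul_assoc, hX, mul_smul_comm, smul_smul,
          div_mul_cancel₀ _ hs, ← mul_assoc, hC]
      have h2 := congrArg (· * Q⁻¹) h1
      simpa only [Matrix.mul_nonsing_inv_cancel_right _ _ hu] using h2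
    rw [Units.val_mul, Units.val_mul, mul_assoc, hXX, mul_smul_comm, ← mul_assoc, Units.inv_mul,
      one_mul, smul_smul, div_mul_div_cancel₀ hs', div_self hs, one_smul]
  set Φ : Γ →* GL (Fin 2) ℂ ⧸ Subgroup.center (GL (Fin 2) ℂ) :=
    (MulAut.conj (π C)⁻¹).toMonoidHom.comp (π.comp ρ)
  have hΦ : ∀ σ, Φ σ = π C⁻¹ * π (ρ σ) * π C := fun σ => by simp [Φ]
  have hΦa : Φ a = θ g3I := (hΦ a).trans (hconj _ _ _ α' α hα' hα hA' hA)
  have hΦb : Φ b = θ g3J := (hΦ b).trans (hconj _ _ _ β' β hβ' hβ hB' hB)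
  have hup : ∀ g k : G3, UpSign g k → θ g = θ k := by
    rintro g k (rfl | rfl)
    · rfl
    · rw [← neg_one_mul, map_mul, hneg, one_mul]
  have hagree : ∀ σ, R σ ∈ Octa.quat → Φ σ = θ (R σ) := by
    intro σ hσ
    obtain ⟨k, hk⟩ := exists_upSign_q8_of_mem_quat hσ
    obtain ⟨s, hs, hΦs⟩ : ∃ s, R s = q8 k ∧ Φ s = θ (q8 k) := by
      fin_cases k
      · exact ⟨1, map_one R, by rw [map_one]; exact (map_one θ).symm⟩
      · exact ⟨a, ha, hΦa⟩
      · exact ⟨b, hb, hΦb⟩
      · exact ⟨a * b, hab, by rw [map_mul, hΦa, hΦb, ← map_mul]; rfl⟩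
    have hone : Φ (σ * s⁻¹) = 1 := by
      rw [hΦ, hscal, mul_one, ← map_mul, inv_mul_cancel, map_one]
      rw [map_mul, map_inv, hs]
      rcases hk with hk | hk
      · exact Or.inl (by rw [hk, mul_inv_cancel])
      · exact Or.inr (by rw [hk, neg_mul, mul_inv_cancel])
    rw [map_mul, map_inv, hΦs, mul_inv_eq_one] at hone
    rw [hone, hup _ _ hk]
  have hcent : ∀ x, Commute x (θ g3I) → Commute x (θ g3J) → ∃ k, x = θ (q8 k) := by
    intro x hxI hxJ
    obtain ⟨X, rfl⟩ := QuotientGroup.mk'_surjective _ x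
    have sign : ∀ g : G3, Commute (π X) (θ g) →
        (X : M2C) * liftC L g = (liftC L g : M2C) * X ∨
        (X : M2C) * liftC L g = -((liftC L g : M2C) * X) := by
      intro g hg
      have hg' : π (liftC L g * X) = π (X * liftC L g) := by rw [map_mul, map_mul]; exact hg.eq.symm
      obtain ⟨c, hc⟩ := (hπ _ _).1 hg'
      rw [Units.val_mul, Units.val_mul] at hc
      have hd := congrArg Matrix.det hc
      rw [det_mul, det_smul, det_mul, Fintype.card_fin, mul_comm (X : M2C).det] at hd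
      have hc2 : c ^ 2 = 1 := (mul_eq_right₀ (mul_ne_zero (dne _) (dne _))).1 hd.symm
      rcases sq_eq_one_iff.1 hc2 with rfl | rfl
      · exact Or.inl (by rw [hc, one_smul])
      · exact Or.inr (by rw [hc, neg_one_smul])
    have anti : (liftC L g3I : M2C) * liftC L g3J = -((liftC L g3J : M2C) * liftC L g3I) :=
      anticomm_of_traces htI htJ htIJ
    have fin : ∀ k : Fin 4,
        ((X : M2C) * liftC L (q8 k)) * liftC L g3I = liftC L g3I * ((X : M2C) * liftC L (q8 k)) →
        ((X : M2C) * liftC L (q8 k)) * liftC L g3J = liftC L g3J * ((X : M2C) * liftC L (q8 k)) →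
        ∃ k', π X = θ (q8 k') := by
      intro k h1 h2
      obtain ⟨c, hc⟩ := eq_smul_one_of_commute_pair hQ hα hβ hA hB h1 h2
      obtain ⟨m, hm⟩ := q8_inv k
      refine ⟨m, ?_⟩
      rw [← hup _ _ hm, map_inv, eq_inv_iff_mul_eq_one, MonoidHom.comp_apply, ← map_mul, eq_comm,
        ← map_one π, hπ]
      exact ⟨c, by rw [Units.val_mul, hc, Units.val_one]⟩
    have e1 : (liftC L (q8 1) : M2C) = liftC L g3I := rfl
    have e2 : (liftC L (q8 2) : M2C) = liftC L g3J := rfl
    have e3 : (liftC L (q8 3) : M2C) = liftC L g3I * (liftC L g3J : M2C) := by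
      rw [← Units.val_mul, ← map_mul]; rfl
    have anti' : (liftC L g3J : M2C) * liftC L g3I = -((liftC L g3I : M2C) * liftC L g3J) := by
      rw [anti, neg_neg]
    rcases sign _ hxI with hI | hI <;> rcases sign _ hxJ with hJ | hJ
    · exact fin 0 (by simpa [q8] using hI) (by simpa [q8] using hJ)
    · refine fin 1 ?_ ?_ <;> rw [e1]
      · rw [← mul_assoc, ← hI]
      · rw [mul_assoc, anti, mul_neg, ← mul_assoc, hJ, neg_mul, neg_neg, mul_assoc]
    · refine fin 2 ?_ ?_ <;> rw [e2]
      · rw [mul_assoc, anti', mul_neg, ← mul_assoc, hI, neg_mul, neg_neg, mul_assoc]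
      · rw [← mul_assoc, ← hJ]
    · refine fin 3 ?_ ?_ <;> rw [e3]
      · calc (X : M2C) * (liftC L g3I * (liftC L g3J : M2C)) * liftC L g3I
            = ((X : M2C) * liftC L g3I) * ((liftC L g3J : M2C) * liftC L g3I) := by
              simp only [mul_assoc]
          _ = (liftC L g3I : M2C) * ((X : M2C) * (liftC L g3I * (liftC L g3J : M2C))) := by
              rw [hI, anti']; simp only [neg_mul, mul_neg, neg_neg, mul_assoc]
      · calc (X : M2C) * (liftC L g3I * (liftC L g3J : M2C)) * liftC L g3J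
            = (X : M2C) * (-((liftC L g3J : M2C) * liftC L g3I)) * liftC L g3J := by rw [anti]
          _ = -(((X : M2C) * liftC L g3J) * ((liftC L g3I : M2C) * liftC L g3J)) := by
              simp only [neg_mul, mul_neg, mul_assoc]
          _ = (liftC L g3J : M2C) * ((X : M2C) * (liftC L g3I * (liftC L g3J : M2C))) := by
              rw [hJ]; simp only [neg_mul, neg_neg, mul_assoc]
  obtain ⟨v, hv⟩ := exists_conj_eq R hR θ hneg hne Φ hagree hcent
  obtain ⟨V, rfl⟩ := QuotientGroup.mk'_surjective _ v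
  have hfinal : ∀ σ, ∃ c : ℂ, (((C * V)⁻¹ * ρ σ * (C * V) : GL (Fin 2) ℂ) : M2C) =
      c • (liftC L (R σ) : M2C) := by
    intro σ
    rw [← hπ, ← MonoidHom.comp_apply π (liftC L), ← hv σ, hΦ]
    simp only [π, map_mul, map_inv, _root_.mul_inv_rev]
    group
  choose c hc using hfinal
  have hc0 : ∀ σ, c σ ≠ 0 := fun σ h0 => by
    have := hc σ
    rw [h0, zero_smul] at this
    exact ((C * V)⁻¹ * ρ σ * (C * V)).ne_zero this
  have hmul : ∀ σ τ, c (σ * τ) = c σ * c τ := by
    intro σ τ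
    have h1 : ((C * V)⁻¹ * ρ (σ * τ) * (C * V)) =
        ((C * V)⁻¹ * ρ σ * (C * V)) * ((C * V)⁻¹ * ρ τ * (C * V)) := by
      rw [map_mul]; group
    have h2 := congrArg Units.val h1
    rw [Units.val_mul ((C * V)⁻¹ * ρ σ * (C * V)), hc, hc, hc, smul_mul_assoc, mul_smul_comm,
      smul_smul, ← Units.val_mul, ← map_mul, ← map_mul] at h2
    exact smul_left_injective ℂ (Units.ne_zero (liftC L (R (σ * τ)))) h2
  refine ⟨MonoidHom.mk' (fun σ => Units.mk0 (c σ) (hc0 σ))
    fun σ τ => Units.ext (hmul σ τ), fun σ => ?_⟩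
  have htr : (((C * V)⁻¹ * ρ σ * (C * V) : GL (Fin 2) ℂ) : M2C).trace = (ρ σ : M2C).trace := by
    rw [Units.val_mul, Units.val_mul, Matrix.trace_units_conj']
  have hdet : (((C * V)⁻¹ * ρ σ * (C * V) : GL (Fin 2) ℂ) : M2C).det = (ρ σ : M2C).det := by
    rw [Units.val_mul, Units.val_mul, Matrix.det_units_conj']
  rw [← htr, ← hdet, hc σ, trace_smul, det_smul, Fintype.card_fin]
  exact ⟨rfl, rfl⟩

end FLTAgent.LT
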