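import Fermat.Agent.DS.Depletion
import Mathlib.NumberTheory.DirichletCharacter.Basic

/-!
# Twisting a cusp form on `Γ₁(M)` by a periodic weight

For a function `w` modulo `q` the series `∑ w n a n Qⁿ` is a cusp form of level `M q²`.
-/

set_option autoImplicit false
set_option linter.style.haveILetI false

noncomputable section

namespace FLTAgent.LT

open UpperHalfPlane ModularForm MatrixGroups CongruenceSubgroup Matrix
open FLTAgent.IntegralStructure FLTAgent.DS
open scoped Manifold

variable {M : ℕ} [NeZero M] {k : ℤ}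

theorem exists_weightTwist (f : CuspForm (Gamma1 M) k) {q : ℕ} (hq : 0 < q) (w : ZMod q → ℂ) :
    ∃ g : CuspForm (Gamma1 (M * q ^ 2)) k, ∀ n,
      ModularFormClass.qCoeff g n = w (n : ZMod q) * ModularFormClass.qCoeff f n := by
  haveI : NeZero (M * q ^ 2) := ⟨Nat.mul_ne_zero (NeZero.ne M) (pow_ne_zero _ hq.ne')⟩
  set z := Complex.exp (2 * Real.pi * Complex.I / q) with hz'
  have hprim : IsPrimitiveRoot z q := Complex.isPrimitiveRoot_exp q hq.ne'
  set c : ℕ → ℂ := fun j =>
    (q : ℂ)⁻¹ * ∑ u ∈ Finset.range q, w (u : ZMod q) * ((z ^ u)⁻¹) ^ j with hc'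
  set G : ℍ → ℂ := ∑ j ∈ Finset.range q, c j • ((f : ℍ → ℂ) ∣[k] unip ((j : ℝ) / q)) with hG
  have hinv : ∀ γ ∈ Gamma1 (M * q ^ 2), G ∣[k] γ = G := by
    intro γ hγ
    rw [hG, SlashAction.sum_slash]
    refine Finset.sum_congr rfl fun j _ => ?_
    rw [ModularForm.SL_smul_slash, unip_slash_invariant f hq j hγ]
  have hhol : MDiff G := by
    rw [hG]
    exact MDifferentiable.sum fun j _ =>
      MDifferentiable.const_smul _ ((CuspFormClass.holo f).slash _ _)
  have hzero : ∀ a : SL(2, ℤ), IsZeroAtImInfty (G ∣[k] a) := by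
    intro a
    rw [hG, SlashAction.sum_slash]
    have h2 : Filter.Tendsto (fun τ => ∑ j ∈ Finset.range q,
        c j * (((f : ℍ → ℂ) ∣[k] unip ((j : ℝ) / q)) ∣[k] a) τ) atImInfty
        (nhds (∑ j ∈ Finset.range q, (0 : ℂ))) := by
      refine tendsto_finsetSum _ fun j _ => ?_
      have := isZeroAtImInfty_unip_slash f ((j : ℚ) / q) a
      push_cast at this
      simpa using Filter.Tendsto.const_mul (c j) this
    rw [Finset.sum_const_zero] at h2
    refine h2.congr fun τ => ?_
    simp [Finset.sum_apply, ModularForm.SL_smul_slash]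
  refine ⟨cuspOfFun (Gamma1 (M * q ^ 2)) k G hinv hhol hzero, fun n => ?_⟩
  have hf := modularForm_mem_qFn f (one_mem_strictPeriods_gamma1 M)
  have hg := modularForm_mem_qFn (cuspOfFun (Gamma1 (M * q ^ 2)) k G hinv hhol hzero)
    (one_mem_strictPeriods_gamma1 (M * q ^ 2))
  refine (UpperHalfPlane.qExpansion_coeff_unique
    (c := fun n => w (n : ZMod q) * ModularFormClass.qCoeff f n)
    (cuspOfFun (Gamma1 (M * q ^ 2)) k G hinv hhol hzero) one_pos (analyticAt_of_mem_qFn hg)
    (fun τ => ?_) n).symm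
  have hper : Function.Periodic ((f : ℍ → ℂ) ∘ ofComplex) ((1 : ℝ) : ℂ) := by exact_mod_cast hf.1
  set Q := Function.Periodic.qParam 1 (τ : ℂ) with hQ
  have hterm : ∀ j : ℕ, HasSum
      (fun m => ModularFormClass.qCoeff f m * Q ^ m * (z ^ m) ^ j)
      (((f : ℍ → ℂ) ∣[k] unip ((j : ℝ) / q)) τ) := by
    intro j
    rw [slash_unip_apply]
    have h := UpperHalfPlane.hasSum_qExpansion one_pos hper hf.2.1 hf.2.2 (((j : ℝ) / q) +ᵥ τ)
    convert! h using 1
    funext m
    have hshift : Function.Periodic.qParam 1 ((((j : ℝ) / q) +ᵥ τ : ℍ) : ℂ) = z ^ j * Q := by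
      rw [hz', hQ, coe_vadd, Function.Periodic.qParam, Function.Periodic.qParam,
        ← Complex.exp_nat_mul, ← Complex.exp_add]
      congr 1
      push_cast
      ring
    simp only [smul_eq_mul, hshift, mul_pow, ← pow_mul, ModularFormClass.qCoeff, mul_comm m j]
    ring
  have hS := hasSum_sum (s := Finset.range q) fun j _ => (hterm j).mul_left (c j)
  have hsum : ∀ m : ℕ, ∑ j ∈ Finset.range q, c j * (z ^ m) ^ j = w (m : ZMod q) := by
    intro m
    simp only [hc', Finset.mul_sum, Finset.sum_mul]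
    rw [Finset.sum_comm, Finset.sum_eq_single (m % q) (fun u hu hne => ?_)
      (fun h => absurd (Finset.mem_range.2 (Nat.mod_lt _ hq)) h)]
    · have h1 : (z ^ (m % q))⁻¹ * z ^ m = 1 := by
        conv_lhs => arg 2; rw [← Nat.mod_add_div m q, pow_add, pow_mul, hprim.pow_eq_one, one_pow,
          mul_one]
        exact inv_mul_cancel₀ (pow_ne_zero _ (hprim.ne_zero hq.ne'))
      simp only [mul_assoc, ← mul_pow, h1, one_pow, mul_one, Finset.sum_const, Finset.card_range,
        nsmul_eq_mul, ZMod.natCast_mod]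
      rw [← mul_assoc, mul_inv_cancel₀ (Nat.cast_ne_zero.2 hq.ne'), one_mul]
    · simp only [mul_assoc, ← mul_pow, ← Finset.mul_sum]
      have h1 : (z ^ u)⁻¹ * z ^ m ≠ 1 := fun e => hne (by
        rw [inv_mul_eq_one₀ (pow_ne_zero _ (hprim.ne_zero hq.ne'))] at e
        have h2 : z ^ u = z ^ (m % q) := by
          rw [e]
          conv_lhs => rw [← Nat.mod_add_div m q, pow_add, pow_mul, hprim.pow_eq_one, one_pow,
            mul_one]
        exact hprim.pow_inj (Finset.mem_range.1 hu) (Nat.mod_lt _ hq) h2)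
      rw [geom_sum_eq h1, mul_pow, inv_pow, ← pow_mul, ← pow_mul, mul_comm u, mul_comm m, pow_mul,
        pow_mul, hprim.pow_eq_one, one_pow, one_pow]
      simp
  have hval : (cuspOfFun (Gamma1 (M * q ^ 2)) k G hinv hhol hzero : ℍ → ℂ) τ
      = ∑ j ∈ Finset.range q, c j * ((f : ℍ → ℂ) ∣[k] unip ((j : ℝ) / q)) τ := by
    simp [hG, Finset.sum_apply]
  rw [hval]
  convert! hS using 1
  funext m
  simp only [smul_eq_mul, ← hQ]
  rw [← hsum m, Finset.sum_mul, Finset.sum_mul]
  refine Finset.sum_congr rfl fun j _ => ?_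
  ring

end FLTAgent.LT
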