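import Fermat.Agent.LT.Interface
import Fermat.Agent.LT.Adjoint.Kronecker
import Fermat.Agent.LT.Adjoint.Recognise
import Fermat.Agent.LT.Adjoint.Twist
import Fermat.Agent.DS.Geom.RedFacts
import Fermat.Agent.DS.ModRep.ModReps
import Fermat.Agent.Chebotarev.Main

/-!
# Piece E: from a weight one eigenform to the octahedral representation

The Deligne-Serre representation is a twist of the lift, the twist is a Dirichlet character, and
twisting it away gives the weight one form with the prescribed eigenvalues.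
-/

set_option autoImplicit false
set_option linter.style.haveILetI false

noncomputable section

namespace FLTAgent.LT

open FLT.ExplicitLift Matrix EisensteinWeightOne

theorem isFinLevel_rbar (d : Octa) : ∃ F : IntermediateField ℚ Qb, FiniteDimensional ℚ F ∧
    ∀ σ : Gam, (∀ x ∈ F, σ x = x) → d.rbar σ = 1 := by
  have hopen : IsOpen (d.rbar.ker : Set Gam) := d.isOpen_comap ⊥
  obtain ⟨h1, h2⟩ := Octa.fixing_of_open hopen
  refine ⟨IntermediateField.fixedField d.rbar.ker, h2, fun σ hσ => MonoidHom.mem_ker.1 ?_⟩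
  rw [← h1]
  exact (IntermediateField.mem_fixingSubgroup_iff _ σ).2 hσ

/-- Every element agrees with a Frobenius element on three given characters of finite level. -/
theorem exists_frobenius_triple (d : Octa) {ρ : Gam →* GL (Fin 2) ℂ}
    (hρ : GaloisFactorsThroughFiniteLevel ρ) (M : ℕ) [NeZero M] (σ : Gam) (S : Finset ℕ) :
    ∃ p : ℕ, p.Prime ∧ p ∉ S ∧ ∃ A : ValuationSubring Qb, A.LiesOverPrime p ∧ ∃ φ : Gam,
      A.IsFrobeniusAt φ p ∧ ρ φ = ρ σ ∧ d.rbar φ = d.rbar σ ∧ cycMod M φ = cycMod M σ := by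
  have hfin : GaloisFactorsThroughFiniteLevel (ρ.prod (d.rbar.prod (cycMod M))) := by
    obtain ⟨L, hL, hker⟩ := hρ
    obtain ⟨F, hF, hFker⟩ := isFinLevel_rbar d
    obtain ⟨C, hC, hCker⟩ := cycMod_finiteLevel (M := M)
    refine ⟨L ⊔ (F ⊔ C), inferInstance, fun τ hτ => ?_⟩
    simp only [MonoidHom.prod_apply]
    rw [hker τ fun x hx => hτ x (le_sup_left (b := F ⊔ C) hx),
      hFker τ fun x hx => hτ x (le_sup_right (a := L) (le_sup_left (b := C) hx)),
      hCker τ fun x hx => hτ x (le_sup_right (a := L) (le_sup_right (a := F) hx))]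
    rfl
  obtain ⟨p, hp, hpS, A, hA, -, φ, hφ, hφσ⟩ :=
    Chebotarev.exists_frobenius_of_factorsThroughFiniteLevel _ hfin σ S
  simp only [MonoidHom.prod_apply, Prod.ext_iff] at hφσ
  exact ⟨p, hp, hpS, A, hA, φ, hφ, hφσ.1, hφσ.2.1, hφσ.2.2⟩

theorem norm_dirichlet_of_isUnit {L : ℕ} [NeZero L] (χ : DirichletCharacter ℂ L) {x : ZMod L}
    (hx : IsUnit x) : ‖χ x‖ = 1 := by
  obtain ⟨u, rfl⟩ := hx
  refine Complex.norm_eq_one_of_pow_eq_one (n := Fintype.card (ZMod L)ˣ) ?_ Fintype.card_ne_zero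
  rw [← map_pow, ← Units.val_pow_eq_pow_val, pow_card_eq_one, Units.val_one, map_one]

theorem cycMod_three (σ : Gam) : cycMod 3 σ = WeierstrassCurve.modThreeCyclotomicChar σ := rfl

theorem det_liftC_rbar (d : Octa) {p : ℕ} (hp : p.Prime) (hp3 : p ≠ 3) {A : ValuationSubring Qb}
    (hA : A.LiesOverPrime p) {φ : Gam} (hφ : A.IsFrobeniusAt φ p) :
    ((liftC d.lift (d.rbar φ) : GL (Fin 2) ℂ) : M2C).det = ((chiNegThree p : ℤ) : ℂ) := by
  have h1 : (Matrix.GeneralLinearGroup.det (d.rbar φ) : ZMod 3) = (p : ZMod 3) := by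
    rw [d.det_eq, ← cycMod_three,
      cycMod_frobenius hA hφ ((Nat.coprime_primes Nat.prime_three hp).2 (Ne.symm hp3))]
  have hmod : ∀ r : ℕ, (p : ZMod 3) = (r : ZMod 3) → p % 3 = r % 3 := fun r h =>
    (ZMod.natCast_eq_natCast_iff' p r 3).1 h
  rw [det_liftC]
  rcases det_lift d.lift_red (d.rbar φ) with ⟨hd, hL⟩ | ⟨hd, hL⟩
  · have := hmod 1 (by rw [← h1, hd]; simp)
    simp [hL, chiNegThree, this]
  · have := hmod 2 (by rw [← h1, hd]; decide)
    simp [hL, chiNegThree, this]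

/-- Piece E. -/
theorem adjointMatch (d : Octa) : AdjointMatch d := by
  intro L hL ε ω f hGood hf₁ hT hω
  obtain ⟨ρ, hρ, -, hρloc⟩ := DS.deligneSerre_of_facts DS.geomFacts L ε f hf₁ hT
  have hloc : ∀ {p : ℕ}, p.Prime → ¬ p ∣ L → ∀ {A : ValuationSubring Qb}, A.LiesOverPrime p →
      ∀ {φ : Gam}, A.IsFrobeniusAt φ p →
        (ρ φ : M2C).trace = ModularFormClass.qCoeff f p ∧ (ρ φ : M2C).det = ε (p : ZMod L) :=
    fun hp hpL A hA φ hφ => (hρloc _ hp hpL A hA).2 φ hφ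
  have hcop : ∀ {p : ℕ}, p.Prime → ∀ {M : ℕ}, ¬ p ∣ M → M.Coprime p :=
    fun hp M h => (hp.coprime_iff_not_dvd.2 h).symm
  have hdet : ∀ σ, (ρ σ : M2C).det = ε (cycMod L σ : ZMod L) := by
    intro σ
    obtain ⟨p, hp, hpS, A, hA, φ, hφ, h1, -, h3⟩ :=
      exists_frobenius_triple d hρ L σ L.primeFactors
    have hpL : ¬ p ∣ L := fun h => hpS (Nat.mem_primeFactors.2 ⟨hp, h, NeZero.ne L⟩)
    rw [← h1, ← h3, (hloc hp hpL hA hφ).2, cycMod_frobenius hA hφ (hcop hp hpL)]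
  have hquat : ∀ σ, d.rbar σ ∈ Octa.quat → ∃ w : ℂ, ‖w‖ = 1 ∧
      (ρ σ : M2C).trace ^ 2 = w * (liftC d.lift (d.rbar σ) : M2C).trace ^ 2 := by
    intro σ hσ
    obtain ⟨p, hp, hpS, A, hA, φ, hφ, h1, h2, -⟩ :=
      exists_frobenius_triple d hρ L σ L.primeFactors
    have hpL : ¬ p ∣ L := fun h => hpS (Nat.mem_primeFactors.2 ⟨hp, h, NeZero.ne L⟩)
    refine ⟨ω (p : ZMod L), norm_dirichlet_of_isUnit ω ((ZMod.isUnit_iff_coprime p L).2
      (hp.coprime_iff_not_dvd.2 hpL)), ?_⟩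
    rw [← h1, ← h2, (hloc hp hpL hA hφ).1, trace_liftC]
    exact hω p hp hpL A hA φ hφ (by rw [Octa.GM, Subgroup.mem_comap, h2]; exact hσ)
  have hfinord : ∀ σ, ∃ n : ℕ, n ≠ 0 ∧ ρ σ ^ n = 1 := fun σ => by
    obtain ⟨n, hn, h⟩ := exists_pow_eq_one (f := ρ) hρ
    exact ⟨n, hn, h σ⟩
  obtain ⟨η, hη⟩ := exists_twist_char d.lift_red d.rbar d.surj ρ hfinord hquat
  have hηfin : ∃ F : IntermediateField ℚ Qb, FiniteDimensional ℚ F ∧
      ∀ σ : Gam, (∀ x ∈ F, σ x = x) → η σ = 1 := by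
    obtain ⟨F₁, hF₁, hk₁⟩ := hρ
    obtain ⟨F₂, hF₂, hk₂⟩ := isFinLevel_rbar d
    refine ⟨F₁ ⊔ F₂, inferInstance, fun σ hσ => Units.ext ?_⟩
    have h := (hη σ).1
    rw [hk₁ σ fun x hx => hσ x (le_sup_left (b := F₂) hx),
      hk₂ σ fun x hx => hσ x (le_sup_right (a := F₁) hx), map_one, Units.val_one,
      trace_one] at h
    rw [Units.val_one]
    norm_num at h
    simp [h]
  haveI : NeZero (3 * L) := ⟨mul_ne_zero (by norm_num) (NeZero.ne L)⟩
  have hker : (cycMod (3 * L)).ker ≤ ((powMonoidHom 2).comp η).ker := fun σ hσ => by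
    rw [MonoidHom.mem_ker] at hσ ⊢
    have hL1 : cycMod L σ = 1 := by rw [← cycMod_castHom (dvd_mul_left L 3), hσ, map_one]
    have h31 : cycMod 3 σ = 1 := by rw [← cycMod_castHom (dvd_mul_right 3 L), hσ, map_one]
    have h := (hη σ).2
    rw [hdet, hL1, Units.val_one, map_one, det_liftC] at h
    have hd : (Matrix.GeneralLinearGroup.det (d.rbar σ) : ZMod 3) = 1 := by
      rw [d.det_eq, ← cycMod_three, h31, Units.val_one]
    rcases det_lift d.lift_red (d.rbar σ) with ⟨-, hl⟩ | ⟨hl, -⟩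
    · rw [hl, map_one, mul_one] at h
      exact Units.ext (by simpa using h.symm)
    · rw [hd] at hl
      exact absurd hl (by decide)
  obtain ⟨M, hM, χ, hχ⟩ := exists_dirichlet_of_sq hηfin
    (MonoidHom.liftOfSurjective (cycMod (3 * L)) cycMod_surjective ⟨(powMonoidHom 2).comp η, hker⟩)
    (fun σ => (MonoidHom.liftOfRightInverse_comp_apply (cycMod (3 * L)) _ _
      ⟨(powMonoidHom 2).comp η, hker⟩ σ).symm)
  -- the twist
  set Q := 3 * L * M with hQ
  haveI : NeZero Q := ⟨mul_ne_zero (NeZero.ne _) (NeZero.ne M)⟩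
  haveI : Fact (1 < Q) := ⟨by
    have := Nat.pos_of_neZero L
    have := Nat.pos_of_neZero M
    nlinarith⟩
  set N := L * Q ^ 2 with hN
  haveI : NeZero N := ⟨mul_ne_zero (NeZero.ne L) (pow_ne_zero _ (NeZero.ne Q))⟩
  set w : DirichletCharacter ℂ Q :=
    MulChar.ofUnitHom (χ⁻¹.comp (ZMod.unitsMap (dvd_mul_left M (3 * L)))) with hw
  obtain ⟨g, hg⟩ := exists_weightTwist f (Nat.pos_of_neZero Q) (fun x => w x)
  have hdvdN : ∀ {p : ℕ}, p.Prime → (p ∣ N ↔ p ∣ Q) := by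
    intro p hp
    refine ⟨fun h => ?_, fun h => (h.trans (dvd_pow_self Q two_ne_zero)).trans (dvd_mul_left _ L)⟩
    rcases (Nat.Prime.dvd_mul hp).1 h with h' | h'
    · exact h'.trans ((dvd_mul_left L 3).trans (dvd_mul_right _ M))
    · exact hp.dvd_of_dvd_pow h'
  have hgood : ∀ {p : ℕ}, p.Prime → ¬ p ∣ N → ¬ p ∣ L ∧ p ≠ 3 ∧ ¬ p ∣ M := by
    intro p hp h
    rw [hdvdN hp] at h
    exact ⟨fun h' => h (h'.trans ((dvd_mul_left L 3).trans (dvd_mul_right _ M))),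
      fun h' => h (h' ▸ (dvd_mul_right 3 L).trans (dvd_mul_right _ M)),
      fun h' => h (h'.trans (dvd_mul_left M _))⟩
  have hwval : ∀ {p : ℕ}, p.Prime → ¬ p ∣ N → ∀ {A : ValuationSubring Qb}, A.LiesOverPrime p →
      ∀ {φ : Gam}, A.IsFrobeniusAt φ p → w (p : ZMod Q) = (η φ : ℂ)⁻¹ := by
    intro p hp hpN A hA φ hφ
    have hpQ : ¬ p ∣ Q := fun h => hpN ((hdvdN hp).2 h)
    rw [← cycMod_frobenius hA hφ (hcop hp hpQ), hw, MulChar.ofUnitHom_coe, MonoidHom.comp_apply,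
      cycMod_castHom, MonoidHom.inv_apply, ← hχ, Units.val_inv_eq_inv_val]
  set a : ℕ → ℂ := fun n => w (n : ZMod Q) * ModularFormClass.qCoeff f n with ha
  set e : ℕ → ℤ√(-2) := fun ℓ => if ℓ ∣ N then 0 else ((chiNegThree ℓ : ℤ) : ℤ√(-2)) with he
  have hrel : ∀ ℓ : ℕ, ℓ.Prime → ∀ n : ℕ,
      a (ℓ * n) + iotaC (e ℓ) * (if ℓ ∣ n then a (n / ℓ) else 0) = a ℓ * a n := by
    intro ℓ hℓ n
    by_cases hℓN : ℓ ∣ N
    · have h0 : w (ℓ : ZMod Q) = 0 := MulChar.map_nonunit _ (by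
        rw [ZMod.isUnit_iff_coprime, hℓ.coprime_iff_not_dvd, not_not]
        exact (hdvdN hℓ).1 hℓN)
      simp [ha, he, hℓN, map_mul, h0]
    · obtain ⟨A, φ, hA, hφ⟩ := Frobenius.exists_liesOverPrime_isFrobeniusAt hℓ
      obtain ⟨hℓL, hℓ3, -⟩ := hgood hℓ hℓN
      have hwℓ := hwval hℓ hℓN hA hφ
      have hε : (w (ℓ : ZMod Q)) ^ 2 * ε (ℓ : ZMod L) = ((chiNegThree ℓ : ℤ) : ℂ) := by
        rw [hwℓ, ← (hloc hℓ hℓL hA hφ).2, (hη φ).2, det_liftC_rbar d hℓ hℓ3 hA hφ, inv_pow,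
          inv_mul_cancel_left₀ (pow_ne_zero 2 (η φ).ne_zero)]
      have key := hT ℓ hℓ hℓL n
      have hei : iotaC (e ℓ) = ((chiNegThree ℓ : ℤ) : ℂ) := by
        simp only [he, if_neg hℓN, map_intCast]
      rw [hei, ← hε]
      by_cases hn : ℓ ∣ n
      · rw [if_pos hn] at key ⊢
        obtain ⟨m, rfl⟩ := hn
        rw [Nat.mul_div_cancel_left m hℓ.pos] at key ⊢
        simp only [ha, Nat.cast_mul, map_mul] at key ⊢
        linear_combination (w (ℓ : ZMod Q) ^ 2 * w (m : ZMod Q)) * key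
      · rw [if_neg hn] at key ⊢
        simp only [ha, Nat.cast_mul, map_mul] at key ⊢
        linear_combination (w (ℓ : ZMod Q) * w (n : ZMod Q)) * key
  have htr : ∀ {p : ℕ}, p.Prime → ¬ p ∣ N → ∀ {A : ValuationSubring Qb}, A.LiesOverPrime p →
      ∀ {φ : Gam}, A.IsFrobeniusAt φ p →
        a p = iotaC ((d.lift (d.rbar φ) : GL (Fin 2) (ℤ√(-2))) :
          Matrix (Fin 2) (Fin 2) (ℤ√(-2))).trace := by
    intro p hp hpN A hA φ hφ
    obtain ⟨hpL, -, -⟩ := hgood hp hpN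
    simp only [ha]
    rw [hwval hp hpN hA hφ, ← (hloc hp hpL hA hφ).1, (hη φ).1, trace_liftC,
      inv_mul_cancel_left₀ (η φ).ne_zero]
  have ha1 : a 1 = 1 := by simp [ha, hf₁]
  have ha0 : a 0 = 0 := by simp [ha, MulChar.map_zero]
  have hint : ∀ n, ∃ x : ℤ√(-2), iotaC x = a n := by
    intro n
    induction n using Nat.strong_induction_on with
    | _ n ih =>
      rcases eq_or_ne n 0 with rfl | hn0
      · exact ⟨0, by rw [map_zero, ha0]⟩
      rcases eq_or_ne n 1 with rfl | hn1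
      · exact ⟨1, by rw [map_one, ha1]⟩
      obtain ⟨p, hp, m, rfl⟩ := Nat.exists_prime_and_dvd hn1
      have hm0 : m ≠ 0 := fun h => hn0 (by rw [h, mul_zero])
      have hmlt : m < p * m := by nlinarith [hp.two_le, Nat.pos_of_ne_zero hm0]
      obtain ⟨x, hx⟩ := ih m hmlt
      obtain ⟨y, hy⟩ : ∃ y, iotaC y = a p := by
        by_cases hpN : p ∣ N
        · refine ⟨0, ?_⟩
          rw [map_zero, eq_comm]
          simp only [ha]
          rw [MulChar.map_nonunit _ (by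
            rw [ZMod.isUnit_iff_coprime, hp.coprime_iff_not_dvd, not_not]
            exact (hdvdN hp).1 hpN), zero_mul]
        · obtain ⟨A, φ, hA, hφ⟩ := Frobenius.exists_liesOverPrime_isFrobeniusAt hp
          exact ⟨_, (htr hp hpN hA hφ).symm⟩
      obtain ⟨z, hz⟩ : ∃ z, iotaC z = (if p ∣ m then a (m / p) else 0) := by
        by_cases hpm : p ∣ m
        · rw [if_pos hpm]
          exact ih _ (lt_of_le_of_lt (Nat.div_le_self m p) hmlt)
        · exact ⟨0, by rw [if_neg hpm, map_zero]⟩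
      refine ⟨y * x - e p * z, ?_⟩
      rw [map_sub, map_mul, map_mul, hx, hy, hz, ← hrel p hp m, add_sub_cancel_right]
  choose b hb using hint
  refine ⟨N, inferInstance, b, g, ⟨Nat.pos_of_neZero N, ?_, fun p hp hpN A hA σ hσ =>
    hGood.2.2 p hp (hgood hp hpN).1 A hA σ hσ⟩, ⟨?_, fun ℓ hℓ n => ?_⟩,
    fun n => by rw [hg, hb], fun p hp hp3 A hA σ hσ => ?_⟩
  · exact (hdvdN Nat.prime_three).2 ((dvd_mul_right 3 L).trans (dvd_mul_right _ M))
  · exact iotaC_injective (by rw [hb, ha1, map_one])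
  · refine iotaC_injective ?_
    have hite : iotaC (if ℓ ∣ n then b (n / ℓ) else 0) = if ℓ ∣ n then a (n / ℓ) else 0 := by
      split_ifs <;> simp [hb]
    show iotaC (b (ℓ * n) + e ℓ * (if ℓ ∣ n then b (n / ℓ) else 0)) = iotaC (b ℓ * b n)
    rw [map_add, map_mul, map_mul, hite, hb, hb, hb]
    exact hrel ℓ hℓ n
  · exact iotaC_injective
      ((hb p).trans (htr hp (fun h => hp3 (h.trans (dvd_mul_left N 3))) hA hσ))

end FLTAgent.LT
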