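import Fermat.Agent.LT.Defs

/-!
# The group `GL₂(𝔽₃)` and projective representations agreeing on the quaternion part
-/

set_option autoImplicit false

noncomputable section

namespace FLTAgent.LT

/-- `GL₂(𝔽₃)` -/
abbrev G3 := GL (Fin 2) (ZMod 3)

/-- The quaternion `i`. -/
def g3I : G3 := ⟨!![0, -1; 1, 0], !![0, 1; -1, 0], by decide, by decide⟩

/-- The quaternion `j`. -/
def g3J : G3 := ⟨!![1, 1; 1, -1], !![-1, -1; -1, 1], by decide, by decide⟩

/-- An element of order three normalising the quaternions. -/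
def g3H : G3 := ⟨!![1, 1; 0, 1], !![1, -1; 0, 1], by decide, by decide⟩

/-- Representatives `1, i, j, ij`. -/
def q8 : Fin 4 → G3 := ![1, g3I, g3J, g3I * g3J]

/-- Equality up to sign. -/
def UpSign (g k : G3) : Prop := g = k ∨ g = -k

instance (g k : G3) : Decidable (UpSign g k) := by unfold UpSign; infer_instance

theorem q8_mul (k l : Fin 4) : ∃ m, UpSign (q8 k * q8 l) (q8 m) := by
  revert k l; decide

theorem q8_inv (k : Fin 4) : ∃ m, UpSign (q8 k)⁻¹ (q8 m) := by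
  revert k; decide

theorem q8_norm (k l : Fin 4) : UpSign ((q8 l)⁻¹ * q8 k * q8 l) (q8 k) := by
  revert k l; decide

theorem q8_comm (k : Fin 4) :
    ∃ l, UpSign (q8 k) (g3H⁻¹ * q8 l * g3H * (q8 l)⁻¹) := by
  revert k; decide

theorem q8_not_comm (k : Fin 4) :
    k = 0 ∨ ∃ l, l ≠ 0 ∧ UpSign (q8 k * g3H * (q8 k)⁻¹ * g3H⁻¹) (q8 l) := by
  revert k; decide

theorem q8_conj_neg (l : Fin 4) : l = 0 ∨ ∃ m, q8 m * q8 l * (q8 m)⁻¹ = -q8 l := by
  revert l; decide

theorem q8_of_sq : ∀ a b c d : ZMod 3, a * d - b * c = 1 →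
    !![a, b; c, d] * !![a, b; c, d] = -1 →
    ∃ k, !![a, b; c, d] = (q8 k : Matrix (Fin 2) (Fin 2) (ZMod 3)) ∨
      !![a, b; c, d] = -(q8 k : Matrix (Fin 2) (Fin 2) (ZMod 3)) := by
  decide

theorem sl_decomp : ∀ a b c d : ZMod 3, a * d - b * c = 1 →
    ∃ k, ∃ m : Fin 3,
      !![a, b; c, d] = ((q8 k * g3H ^ (m : ℕ) : G3) : Matrix (Fin 2) (Fin 2) (ZMod 3)) ∨
      !![a, b; c, d] = -((q8 k * g3H ^ (m : ℕ) : G3) : Matrix (Fin 2) (Fin 2) (ZMod 3)) := by
  decide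

theorem det_eq_entries (g : G3) (h : Matrix.GeneralLinearGroup.det g = 1) :
    g 0 0 * g 1 1 - g 0 1 * g 1 0 = 1 := by
  rw [← Matrix.det_fin_two]
  exact congrArg Units.val h

theorem exists_upSign_q8_of_mem_quat {g : G3} (hg : g ∈ Octa.quat) : ∃ k, UpSign g (q8 k) := by
  induction hg using Subgroup.closure_induction with
  | mem x hx =>
    obtain ⟨h1, h2⟩ := hx
    rw [Units.val_pow_eq_pow_val, pow_two, Matrix.eta_fin_two (x : Matrix (Fin 2) (Fin 2) (ZMod 3))]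
      at h2
    obtain ⟨k, hk⟩ := q8_of_sq _ _ _ _ (det_eq_entries x h1) h2
    rw [← Matrix.eta_fin_two] at hk
    exact ⟨k, hk.imp (fun h => Units.ext h) fun h => Units.ext (by rw [h, Units.val_neg])⟩
  | one => exact ⟨0, Or.inl rfl⟩
  | mul x y _ _ hx hy =>
    obtain ⟨k, hk⟩ := hx
    obtain ⟨l, hl⟩ := hy
    obtain ⟨m, hm⟩ := q8_mul k l
    refine ⟨m, ?_⟩
    unfold UpSign at *
    rcases hk with rfl | rfl <;> rcases hl with rfl | rfl <;> rcases hm with h | h <;>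
      simp [h]
  | inv x _ hx =>
    obtain ⟨k, hk⟩ := hx
    obtain ⟨m, hm⟩ := q8_inv k
    refine ⟨m, ?_⟩
    unfold UpSign at *
    rcases hk with rfl | rfl <;> rcases hm with h | h <;> simp [h]

theorem q8_mem_quat (k : Fin 4) : q8 k ∈ Octa.quat := by
  have hI : g3I ∈ Octa.quat :=
    Subgroup.subset_closure ⟨Units.ext (by decide), by decide⟩
  have hJ : g3J ∈ Octa.quat :=
    Subgroup.subset_closure ⟨Units.ext (by decide), by decide⟩
  fin_cases k
  · exact one_mem _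
  · exact hI
  · exact hJ
  · exact mul_mem hI hJ

theorem neg_one_mem_quat : (-1 : G3) ∈ Octa.quat := by
  have h := pow_mem (q8_mem_quat 1) 2
  rwa [show (-1 : G3) = q8 1 ^ 2 by decide]

theorem mem_quat_of_upSign {g : G3} {k : Fin 4} (h : UpSign g (q8 k)) : g ∈ Octa.quat := by
  rcases h with rfl | rfl
  · exact q8_mem_quat k
  · rw [← neg_one_mul]
    exact mul_mem neg_one_mem_quat (q8_mem_quat k)

theorem exists_decomp_of_det (g : G3) (h : Matrix.GeneralLinearGroup.det g = 1) :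
    ∃ k, ∃ m : Fin 3, UpSign g (q8 k * g3H ^ (m : ℕ)) := by
  obtain ⟨k, m, hk⟩ := sl_decomp _ _ _ _ (det_eq_entries g h)
  rw [← Matrix.eta_fin_two] at hk
  exact ⟨k, m, hk.imp (fun h => Units.ext h) fun h => Units.ext (by rw [h, Units.val_neg])⟩

theorem quat_conj {g k : G3} (hk : k ∈ Octa.quat) : g * k * g⁻¹ ∈ Octa.quat := by
  induction hk using Subgroup.closure_induction with
  | mem x hx =>
    refine Subgroup.subset_closure ⟨?_, ?_⟩
    · rw [map_mul, map_mul, hx.1, mul_one, ← map_mul, mul_inv_cancel, map_one]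
    · have hx2 : x ^ 2 = -1 := Units.ext (by rw [hx.2, Units.val_neg, Units.val_one])
      rw [conj_pow, hx2]
      simp
  | one => simp
  | mul x y _ _ hx hy => simpa [mul_assoc] using mul_mem hx hy
  | inv x _ hx => simpa [mul_assoc] using inv_mem hx

variable {Γ P : Type*} [Group Γ] [Group P]

/-- A projective representation agreeing with a faithful one on the quaternion part is
conjugate to it. -/
theorem exists_conj_eq (R : Γ →* G3) (hR : Function.Surjective R) (θ : G3 →* P)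
    (hneg : θ (-1) = 1) (hne : ∀ l : Fin 4, l ≠ 0 → θ (q8 l) ≠ 1) (Φ : Γ →* P)
    (hagree : ∀ σ, R σ ∈ Octa.quat → Φ σ = θ (R σ))
    (hcent : ∀ x : P, Commute x (θ g3I) → Commute x (θ g3J) → ∃ k, x = θ (q8 k)) :
    ∃ v : P, ∀ σ, v⁻¹ * Φ σ * v = θ (R σ) := by
  have hup : ∀ g k : G3, UpSign g k → θ g = θ k := by
    rintro g k (rfl | rfl)
    · rfl
    · rw [← neg_one_mul, map_mul, hneg, one_mul]
  -- conjugation on the quaternions
  have hdefect : ∀ (Φ' : Γ →* P), (∀ σ, R σ ∈ Octa.quat → Φ' σ = θ (R σ)) →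
      ∀ σ, ∃ k, Φ' σ = θ (R σ * q8 k) := by
    intro Φ' hag σ
    have hcomm : ∀ q, q ∈ Octa.quat → Commute ((θ (R σ))⁻¹ * Φ' σ) (θ q) := by
      intro q hq
      obtain ⟨a, rfl⟩ := hR q
      have h1 := hag (σ * a * σ⁻¹) (by rw [map_mul, map_mul, map_inv]; exact quat_conj hq)
      simp only [map_mul, map_inv, hag a hq] at h1
      show _ * _ = _ * _
      rw [eq_mul_inv_iff_mul_eq] at h1
      calc (θ (R σ))⁻¹ * Φ' σ * θ (R a) = (θ (R σ))⁻¹ * (Φ' σ * θ (R a) * (Φ' σ)⁻¹) * Φ' σ := by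
            group
        _ = (θ (R σ))⁻¹ * (θ (R σ) * θ (R a) * (θ (R σ))⁻¹) * Φ' σ := by
            rw [← h1]; group
        _ = θ (R a) * ((θ (R σ))⁻¹ * Φ' σ) := by group
    obtain ⟨k, hk⟩ := hcent _ (hcomm _ (q8_mem_quat 1)) (hcomm _ (q8_mem_quat 2))
    exact ⟨k, by rw [map_mul, ← hk, mul_inv_cancel_left]⟩
  -- normalisation at an element of order three
  obtain ⟨τ, hτ⟩ := hR g3H
  obtain ⟨k₀, hk₀⟩ := hdefect Φ hagree τ
  obtain ⟨l, hl⟩ := q8_comm k₀
  refine ⟨θ (q8 l), ?_⟩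
  set v := θ (q8 l) with hv
  set Φ' : Γ →* P := (MulAut.conj v⁻¹).toMonoidHom.comp Φ with hΦ'
  have hΦ'app : ∀ σ, Φ' σ = v⁻¹ * Φ σ * v := fun σ => by simp [hΦ']
  have hag' : ∀ σ, R σ ∈ Octa.quat → Φ' σ = θ (R σ) := by
    intro σ hσ
    obtain ⟨k, hk⟩ := exists_upSign_q8_of_mem_quat hσ
    rw [hΦ'app, hagree σ hσ, hup _ _ hk, hv, ← map_inv, ← map_mul, ← map_mul]
    exact hup _ _ (q8_norm k l)
  have hτ' : Φ' τ = θ (R τ) := by
    rw [hΦ'app, hk₀, map_mul, hup _ _ hl, hv, hτ]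
    simp only [map_mul, map_inv]
    group
  have hK : ∀ σ, Matrix.GeneralLinearGroup.det (R σ) = 1 → Φ' σ = θ (R σ) := by
    intro σ hσ
    obtain ⟨k, m, hkm⟩ := exists_decomp_of_det (R σ) hσ
    have hq : R (σ * (τ ^ (m : ℕ))⁻¹) ∈ Octa.quat := by
      refine mem_quat_of_upSign (k := k) ?_
      rw [map_mul, map_inv, map_pow, hτ]
      rcases hkm with h | h
      · exact Or.inl (by rw [h, mul_inv_cancel_right])
      · exact Or.inr (by rw [h, neg_mul, mul_inv_cancel_right])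
    have h := hag' _ hq
    rw [map_mul, map_inv, map_pow, hτ', map_mul, map_inv, map_pow, map_mul, map_inv, map_pow]
      at h
    exact mul_right_cancel h
  intro σ
  rw [← hΦ'app]
  obtain ⟨k, hk⟩ := hdefect Φ' hag' σ
  rcases q8_not_comm k with rfl | ⟨m, hm, hkm⟩
  · rw [hk]; simp [q8]
  · exfalso
    have h := hK (σ * τ * σ⁻¹) (by
      simp only [map_mul, map_inv, mul_inv_cancel_comm, hτ]
      exact Units.ext (by decide))
    simp only [map_mul, map_inv, hk, hτ', hτ] at h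
    refine hne m hm ?_
    rw [← hup _ _ hkm]
    simp only [map_mul, map_inv] at h ⊢
    calc θ (q8 k) * θ g3H * (θ (q8 k))⁻¹ * (θ g3H)⁻¹
        = (θ (R σ))⁻¹ * (θ (R σ) * θ (q8 k) * θ g3H * (θ (R σ) * θ (q8 k))⁻¹) * θ (R σ) *
            (θ g3H)⁻¹ := by group
      _ = (θ (R σ))⁻¹ * (θ (R σ) * θ g3H * (θ (R σ))⁻¹) * θ (R σ) * (θ g3H)⁻¹ := by rw [h]
      _ = 1 := by group

end FLTAgent.LT
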