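import Fermat.Agent.LT.Adjoint.OctaGroup

/-!
# Recognition of a twist of the octahedral representation

A finite-order two dimensional complex representation whose squared traces on the quaternion part
are those of the lift of `GL₂(𝔽₃)` up to a unit factor is a twist of the lift.
-/

set_option autoImplicit false
set_option linter.style.haveILetI false

noncomputable section

namespace FLTAgent.LT

open Matrix FLT.ExplicitLift

/-- Two dimensional complex matrices. -/
abbrev M2C := Matrix (Fin 2) (Fin 2) ℂ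

theorem eq_smul_one_of_finite_order {X : M2C} {n : ℕ} (hn : n ≠ 0) (hX : X ^ n = 1)
    (htr : ‖X.trace‖ = 2) : ∃ c : ℂ, X = c • 1 := by
  have root : ∀ x : ℂ, x ^ 2 - X.trace * x + X.det = 0 → ‖x‖ = 1 := by
    intro x hx
    have hdet : (X - x • 1).det = 0 := by
      rw [det_fin_two] at hx ⊢
      rw [trace_fin_two] at hx
      simp
      linear_combination hx
    obtain ⟨v, hv, hXv⟩ := Matrix.exists_mulVec_eq_zero_iff.2 hdet
    rw [sub_mulVec, smul_mulVec, one_mulVec, sub_eq_zero] at hXv
    have hpow : ∀ m : ℕ, (X ^ m) *ᵥ v = x ^ m • v := by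
      intro m
      induction m with
      | zero => simp
      | succ m ih => rw [pow_succ, ← mulVec_mulVec, hXv, mulVec_smul, ih, smul_smul, pow_succ']
    have h1 := hpow n
    rw [hX, one_mulVec] at h1
    obtain ⟨i, hi⟩ := Function.ne_iff.1 hv
    have : x ^ n = 1 := by
      have h2 := congrFun h1 i
      rw [Pi.smul_apply, smul_eq_mul] at h2
      exact (mul_eq_right₀ hi).1 h2.symm
    exact Complex.norm_eq_one_of_pow_eq_one this hn
  obtain ⟨s, hs⟩ := IsAlgClosed.exists_pow_nat_eq (X.trace ^ 2 - 4 * X.det) two_pos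
  have h1 := root ((X.trace + s) / 2) (by linear_combination (1 / 4 : ℂ) * hs)
  have h2 := root ((X.trace - s) / 2) (by linear_combination (1 / 4 : ℂ) * hs)
  rw [norm_div, Complex.norm_two, div_eq_one_iff_eq (by norm_num)] at h1 h2
  have hs0 : s = 0 := by
    have hpar := parallelogram_law_with_norm ℂ X.trace s
    rw [h1, h2, htr] at hpar
    exact norm_eq_zero.1 (by nlinarith [norm_nonneg s])
  rw [hs0, zero_pow two_ne_zero, eq_comm, sub_eq_zero] at hs
  set x := X.trace / 2 with hx
  set N := X - x • 1 with hN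
  have hNN : N * N = 0 := by
    rw [det_fin_two, trace_fin_two] at hs
    ext i j
    fin_cases i <;> fin_cases j <;>
      simp [hN, hx, trace_fin_two, mul_apply, Fin.sum_univ_two] <;>
      first
        | linear_combination (1 / 4 : ℂ) * hs
        | ring
  have hpow : ∀ m : ℕ, X ^ m = x ^ m • (1 : M2C) + (m * x ^ (m - 1) : ℂ) • N := by
    intro m
    induction m with
    | zero => simp
    | succ m ih =>
      rw [pow_succ, ih, show X = x • 1 + N by rw [hN]; abel]
      simp only [add_mul, mul_add, smul_mul_assoc, mul_smul_comm, one_mul, mul_one, hNN, smul_zero,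
        add_zero, smul_smul]
      rcases m with _ | m
      · simp
      · simp only [Nat.add_sub_cancel, pow_succ]
        push_cast
        module
  have hx1 : ‖x‖ = 1 := by rw [hx, norm_div, htr, Complex.norm_two]; norm_num
  have hx0 : x ≠ 0 := fun h => by simp [h] at hx1
  have hz := hpow n
  rw [hX] at hz
  have hN0 : (n * x ^ (n - 1) : ℂ) • N = (1 - x ^ n) • (1 : M2C) := by
    rw [sub_smul, one_smul]; exact eq_sub_of_add_eq' hz.symm
  refine ⟨x + (1 - x ^ n) / (n * x ^ (n - 1)), ?_⟩
  have hc : (n * x ^ (n - 1) : ℂ) ≠ 0 :=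
    mul_ne_zero (Nat.cast_ne_zero.2 hn) (pow_ne_zero _ hx0)
  rw [add_smul, div_eq_inv_mul, ← smul_smul, ← hN0, smul_smul, inv_mul_cancel₀ hc, one_smul, hN]
  abel

theorem anticomm_of_traces {A B : M2C} (hA : A.trace = 0) (hB : B.trace = 0)
    (hAB : (A * B).trace = 0) : A * B = -(B * A) := by
  simp only [trace_fin_two, mul_apply, Fin.sum_univ_two] at hA hB hAB
  ext i j
  fin_cases i <;> fin_cases j <;> simp [mul_apply, Fin.sum_univ_two]
  · linear_combination hAB - B 1 1 * hA + A 0 0 * hB
  · linear_combination A 0 1 * hB + B 0 1 * hA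
  · linear_combination A 1 0 * hB + B 1 0 * hA
  · linear_combination hAB - B 0 0 * hA + A 1 1 * hB

/-- The normal form of an anticommuting pair. -/
theorem exists_normal_form {A B : M2C} (hA : A.trace = 0) (hB : B.trace = 0)
    (hAB : A * B = -(B * A)) (hdA : A.det ≠ 0) (hdB : B.det ≠ 0) :
    ∃ (Q : M2C) (α β : ℂ), Q.det ≠ 0 ∧ α ≠ 0 ∧ β ≠ 0 ∧
      A * Q = α • (Q * !![1, 0; 0, -1]) ∧ B * Q = β • (Q * !![0, 1; 1, 0]) := by
  obtain ⟨α, hα⟩ := IsAlgClosed.exists_pow_nat_eq (-A.det) two_pos
  obtain ⟨β, hβ⟩ := IsAlgClosed.exists_pow_nat_eq (-B.det) two_pos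
  have hα0 : α ≠ 0 := fun h => hdA (by simpa [h] using hα.symm)
  have hβ0 : β ≠ 0 := fun h => hdB (by simpa [h] using hβ.symm)
  have hdet : (A - α • 1).det = 0 := by
    rw [det_fin_two] at hα ⊢
    rw [trace_fin_two] at hA
    simp
    linear_combination hα - α * hA
  obtain ⟨v, hv, hAv⟩ := Matrix.exists_mulVec_eq_zero_iff.2 hdet
  rw [sub_mulVec, smul_mulVec, one_mulVec, sub_eq_zero] at hAv
  have hBB : B * B = (-B.det) • (1 : M2C) := by
    rw [det_fin_two]
    rw [trace_fin_two] at hB
    ext i j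
    fin_cases i <;> fin_cases j <;> simp [mul_apply, Fin.sum_univ_two]
    · linear_combination B 0 0 * hB
    · linear_combination B 0 1 * hB
    · linear_combination B 1 0 * hB
    · linear_combination B 1 1 * hB
  set w := β⁻¹ • (B *ᵥ v) with hw
  have hBv : B *ᵥ v = β • w := by rw [hw, smul_smul, mul_inv_cancel₀ hβ0, one_smul]
  have hAw : A *ᵥ w = -α • w := by
    rw [hw, mulVec_smul, mulVec_mulVec, hAB, neg_mulVec, ← mulVec_mulVec, hAv, mulVec_smul,
      neg_smul, smul_comm α, smul_neg]
  have hBw : B *ᵥ w = β • v := by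
    rw [hw, mulVec_smul, mulVec_mulVec, hBB, smul_mulVec, one_mulVec, ← hβ, smul_smul]
    congr 1
    field_simp
  refine ⟨!![v 0, w 0; v 1, w 1], α, β, ?_, hα0, hβ0, ?_, ?_⟩
  · intro hQ
    obtain ⟨c, hc, hQc⟩ := Matrix.exists_mulVec_eq_zero_iff.2 hQ
    have hlin : c 0 • v + c 1 • w = 0 := by
      ext i
      have := congrFun hQc i
      fin_cases i <;> simp [mulVec, dotProduct, Fin.sum_univ_two] at this ⊢ <;>
        linear_combination this
    have hA' := congrArg (A *ᵥ ·) hlin
    simp only [mulVec_add, mulVec_smul, hAv, hAw, mulVec_zero] at hA'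
    have h0 : (2 * α * c 0) • v = 0 := by
      have := congrArg (α • ·) hlin
      simp only [smul_add, smul_zero] at this
      rw [← add_zero (0 : Fin 2 → ℂ)]
      nth_rewrite 1 [← this]
      rw [← hA']
      module
    have hc0 : c 0 = 0 := by simpa [hα0, hv] using h0
    rw [hc0, zero_smul, zero_add] at hlin
    have hw0 : w ≠ 0 := fun h => hv (by
      have := hBw
      rw [h, mulVec_zero] at this
      simpa [hβ0] using this.symm)
    have hc1 : c 1 = 0 := (smul_eq_zero.1 hlin).resolve_right hw0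
    exact hc (funext fun i => by fin_cases i <;> simp [hc0, hc1])
  · ext i j
    have e1 := congrFun hAv i
    have e2 := congrFun hAw i
    fin_cases i <;> fin_cases j <;>
      simp [mulVec, dotProduct, mul_apply, Fin.sum_univ_two] at e1 e2 ⊢ <;>
      first
        | linear_combination e1
        | linear_combination e2
  · ext i j
    have e1 := congrFun hBv i
    have e2 := congrFun hBw i
    fin_cases i <;> fin_cases j <;>
      simp [mulVec, dotProduct, mul_apply, Fin.sum_univ_two] at e1 e2 ⊢ <;>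
      first
        | linear_combination e1
        | linear_combination e2

theorem eq_smul_one_of_commute_pair {X A B : M2C} {Q : M2C} {α β : ℂ} (hQ : Q.det ≠ 0)
    (hα : α ≠ 0) (hβ : β ≠ 0) (hAQ : A * Q = α • (Q * !![1, 0; 0, -1]))
    (hBQ : B * Q = β • (Q * !![0, 1; 1, 0])) (hA : X * A = A * X) (hB : X * B = B * X) :
    ∃ c : ℂ, X = c • 1 := by
  have hu : IsUnit Q.det := isUnit_iff_ne_zero.2 hQ
  set Y := Q⁻¹ * X * Q with hY
  have key : ∀ (T : M2C) (U : M2C) (t : ℂ), t ≠ 0 → U * Q = t • (Q * T) → X * U = U * X →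
      Y * T = T * Y := by
    intro T U t ht hU hXU
    have hT : T = t⁻¹ • (Q⁻¹ * (U * Q)) := by
      rw [hU, mul_smul_comm, Matrix.nonsing_inv_mul_cancel_left _ _ hu, smul_smul,
        inv_mul_cancel₀ ht, one_smul]
    rw [hT, hY, mul_smul_comm, smul_mul_assoc]
    simp only [mul_assoc, Matrix.mul_nonsing_inv_cancel_left _ _ hu]
    rw [← mul_assoc X U Q, hXU, mul_assoc]
  have h1 := key _ A α hα hAQ hA
  have h2 := key _ B β hβ hBQ hB
  have e01 := congrFun (congrFun h1 0) 1
  have e10 := congrFun (congrFun h1 1) 0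
  have f01 := congrFun (congrFun h2 0) 1
  simp [mul_apply, Fin.sum_univ_two] at e01 e10 f01
  have hYs : Y = Y 0 0 • (1 : M2C) := by
    ext i j
    fin_cases i <;> fin_cases j <;> simp
    · linear_combination (-1 / 2 : ℂ) * e01
    · linear_combination (1 / 2 : ℂ) * e10
    · linear_combination -f01
  refine ⟨Y 0 0, ?_⟩
  have : X = Q * Y * Q⁻¹ := by
    rw [hY]
    simp only [mul_assoc, Matrix.mul_nonsing_inv_cancel_left _ _ hu, Matrix.mul_nonsing_inv _ hu,
      mul_one]
  rw [this, hYs]
  simp [Matrix.mul_nonsing_inv _ hu]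

end FLTAgent.LT
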